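import Fermat.Agent.S56.H419.EulerAdd

/-!
# S56 / W-BASE / leaf ADD, part 3 (helper419): the archimedean term

For an involution `c` (complex conjugation) and `2 ≠ 0` in `k`, the functor `N ↦ N^{c = -1}` is
exact; hence `φ(N) := h⁰ − h¹ + h² + dim N^{c=-1}` is additive on short exact sequences
(`phi_add`, `PhiAddSpec`, `phiAdd_of`).  Tate's global Euler characteristic formula for `G_{ℚ,S}`
(`p` odd) is the statement `φ ≡ 0`.
-/

set_option autoImplicit false

noncomputable section

namespace Fermat.Agent.S56.H419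

open Fermat.Agent.S55.PT groupCohomology Module

section General

variable {k : Type} [Field k] {G : Type} [Group G]

/-- The `(-1)`-eigenspace of `c` on `N`. -/
def minusPart (c : G) (N : Rep.{0, 0, 0} k G) : Submodule k N :=
  LinearMap.ker (N.ρ c + LinearMap.id)

theorem mem_minusPart {c : G} {N : Rep.{0, 0, 0} k G} {x : N} :
    x ∈ minusPart c N ↔ N.ρ c x = -x := by
  unfold minusPart
  rw [LinearMap.mem_ker, LinearMap.add_apply, LinearMap.id_apply, add_eq_zero_iff_eq_neg]

variable {A B C : Rep.{0, 0, 0} k G} (E : SES A B C) (c : G)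

include E in
/-- auxiliary: membership transported along `i`. -/
theorem SES.i_mem_minusPart (a : ↥(minusPart c A)) : E.i a.1 ∈ minusPart c B := by
  rw [mem_minusPart, ← E.hi c a.1, mem_minusPart.1 a.2, map_neg]

/-- `A^{c=-1} → B^{c=-1}`. -/
def SES.iMinus : ↥(minusPart c A) →ₗ[k] ↥(minusPart c B) :=
  (E.i ∘ₗ (minusPart c A).subtype).codRestrict (minusPart c B) (fun a => by
    rw [mem_minusPart, LinearMap.comp_apply, Submodule.subtype_apply, ← E.hi c a.1,
      mem_minusPart.1 a.2, map_neg])

/-- `B^{c=-1} → C^{c=-1}`. -/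
def SES.πMinus : ↥(minusPart c B) →ₗ[k] ↥(minusPart c C) :=
  (E.π ∘ₗ (minusPart c B).subtype).codRestrict (minusPart c C) (fun b => by
    rw [mem_minusPart, LinearMap.comp_apply, Submodule.subtype_apply, ← E.hπ c b.1,
      mem_minusPart.1 b.2, map_neg])

theorem SES.iMinus_injective : Function.Injective (SES.iMinus E c) := by
  intro x y h
  apply Subtype.ext
  apply E.inj
  exact congrArg Subtype.val h

theorem SES.range_iMinus : LinearMap.range (SES.iMinus E c) = LinearMap.ker (SES.πMinus E c) := by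
  ext b
  constructor
  · rintro ⟨a, rfl⟩
    rw [LinearMap.mem_ker]
    apply Subtype.ext
    exact E.π_i a.1
  · intro hb
    rw [LinearMap.mem_ker] at hb
    have hb' : E.π b.1 = 0 := congrArg Subtype.val hb
    have hmem : b.1 ∈ LinearMap.range E.i := by rw [E.exact]; exact hb'
    obtain ⟨a, ha⟩ := hmem
    have ha' : a ∈ minusPart c A := by
      rw [mem_minusPart]
      apply E.inj
      rw [E.hi c a, ha, mem_minusPart.1 b.2, map_neg, ha]
    exact ⟨⟨a, ha'⟩, Subtype.ext ha⟩

theorem SES.πMinus_surjective (hc : ∀ b : B, B.ρ c (B.ρ c b) = b) (h2 : (2 : k) ≠ 0) :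
    Function.Surjective (SES.πMinus E c) := by
  intro x
  obtain ⟨b, hb⟩ := E.surj x.1
  have hx : C.ρ c x.1 = -x.1 := mem_minusPart.1 x.2
  refine ⟨⟨(2 : k)⁻¹ • (b - B.ρ c b), ?_⟩, ?_⟩
  · rw [mem_minusPart, map_smul, map_sub, hc b, ← smul_neg, neg_sub]
  · apply Subtype.ext
    show E.π ((2 : k)⁻¹ • (b - B.ρ c b)) = x.1
    rw [map_smul, map_sub, E.hπ c b, hb, hx, sub_neg_eq_add, ← two_smul k x.1, smul_smul,
      inv_mul_cancel₀ h2, one_smul]

include E in
/-- Exactness of `N ↦ N^{c=-1}` in terms of dimensions. -/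
theorem finrank_minusPart_add (hc : ∀ b : B, B.ρ c (B.ρ c b) = b) (h2 : (2 : k) ≠ 0)
    [FiniteDimensional k B] :
    finrank k ↥(minusPart c B) = finrank k ↥(minusPart c A) + finrank k ↥(minusPart c C) := by
  have h1 := finrank_eq_of_exact (SES.iMinus E c) (SES.πMinus E c) (SES.range_iMinus E c)
  rw [LinearMap.finrank_range_of_inj (SES.iMinus_injective E c),
    LinearMap.range_eq_top.2 (SES.πMinus_surjective E c hc h2), finrank_top] at h1
  exact h1

/-- `φ(N) = h⁰ − h¹ + h² + dim N^{c=-1}`. -/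
def phi (L : LevelSys G) (c : G) (N : Rep.{0, 0, 0} k G) : ℤ :=
  eulerChar L N + finrank k ↥(minusPart c N)

/-- **ADD, general form, with the archimedean term.** -/
theorem phi_add (hLes0 : Les0Spec) (hLes1 : Les1Spec) (hMid : LesMidSpec)
    (L : LevelSys G) (hN : L.NormalCofinal) (E : SES A B C)
    (hB : L.IsUSmooth B) [FiniteDimensional k B]
    [FiniteDimensional k (L.H1 A)] [FiniteDimensional k (L.H1 B)] [FiniteDimensional k (L.H1 C)]
    [FiniteDimensional k (L.H2 A)] [FiniteDimensional k (L.H2 B)] [FiniteDimensional k (L.H2 C)]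
    (hsurj : Function.Surjective (pushH2 E.π E.hπ L))
    (hc : ∀ b : B, B.ρ c (B.ρ c b) = b) (h2 : (2 : k) ≠ 0) :
    phi L c B = phi L c A + phi L c C := by
  have h1 := eulerChar_add hLes0 hLes1 hMid L hN E hB hsurj
  have h3 := finrank_minusPart_add E c hc h2
  unfold phi
  rw [h1, h3]
  push_cast
  ring

end General

section Global

variable (p : ℕ) [Fact p.Prime] (S : Finset Nat.Primes)

/-- **ADD with archimedean term** (W-BASE, step 1): for an involution `c ∈ G_ℚ` (complex
conjugation) and `p` odd, `φ = h⁰ − h¹ + h² + dim (·)^{c=-1}` is additive on short exact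
sequences of finite-dimensional uniformly smooth `F_p`-representations of `G_{ℚ,S}`. -/
def PhiAddSpec : Prop :=
  p ≠ 2 → ∀ c : GQ, c * c = 1 →
  ∀ (A B C : Rep.{0, 0, 0} (ZMod p) GQ) (_E : SES A B C),
    FiniteDimensional (ZMod p) B → (globalLevels S).IsUSmooth B →
    phi (globalLevels S) c B = phi (globalLevels S) c A + phi (globalLevels S) c C

theorem phiAdd_of (hLes0 : Les0Spec) (hLes1 : Les1Spec) (hMid : LesMidSpec)
    (hGN : GlobalNormalCofinalSpec) (hA1 : FinGlobSpec p S) (hH2 : H2FinGlobSpec p S)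
    (hA3 : Surj2GlobSpec p S) : PhiAddSpec p S := by
  intro hp2 c hcc A B C E hfB hB
  have h1 := eulerAdd_of p S hLes0 hLes1 hMid hGN hA1 hH2 hA3 A B C E hfB hB
  have : FiniteDimensional (ZMod p) B := hfB
  have hc : ∀ b : B, B.ρ c (B.ρ c b) = b := fun b => by
    have h := congrArg (fun f => f b) (map_mul B.ρ c c)
    simp only [Module.End.mul_apply] at h
    rw [← h, hcc, map_one, Module.End.one_apply]
  have h2 : (2 : ZMod p) ≠ 0 := by
    intro h
    have h' : ((2 : ℕ) : ZMod p) = 0 := by exact_mod_cast h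
    rw [ZMod.natCast_eq_zero_iff] at h'
    have hp := (Fact.out : p.Prime)
    exact hp2 ((Nat.prime_dvd_prime_iff_eq hp Nat.prime_two).1 h')
  have h3 := finrank_minusPart_add E c hc h2
  unfold phi
  rw [h1, h3]
  push_cast
  ring

end Global

end Fermat.Agent.S56.H419

end
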