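import Fermat.Agent.S56.H419.H0Perm
import Fermat.Agent.S56.H419.EulerSign
import Fermat.Agent.S55.PT.Setup

/-!
# S56 / W-BASE / leaf EUL-H0, part 2 (helper419): `H⁰` of induced modules, with the
right-translation action

PT vocabulary (`Fermat.Agent.S55.PT`): `indRep U M = (G ⧸ U →₀ M)` with the diagonal action.
For `U` normal and `σ : G`, right translation by `σ⁻¹`,

  `indR U M σ : single (gU) m ↦ single (g σ⁻¹ U) m`,

is an equivariant automorphism of `indRep U M` (`indR_equivariant`), and `σ ↦ indR U M σ` is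
multiplicative (`indR_one`, `indR_mul`): this is the `G ⧸ U`-module structure on `Ind_U M`
"by functoriality in the coefficients".

Results (all equivalences are explicit and intertwine the right translations):

* `indH0Equiv : H⁰(G, Ind_U M) ≃ M^U`, `a ↦ a(U)`; `indR σ` becomes `M.ρ σ`
  (`indH0Equiv_indR`);
* `subInv D U M` := the `a` with `a (d • x) = a x` for `d ∈ D`; `subInvEquiv : subInv D U M ≃
  (D\G/U →₀ M)`, `indR σ` becomes `mapDomain (dcPerm D U σ)` (`subInvEquiv_indR`);
* if `M` is trivial on the image of `r : G' → G` then `H⁰(G', (Ind_U M)|_{G'}) = subInv r.range`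
  (`resH0_eq_subInv`), whence `resIndH0Equiv`;
* if `c` acts by `-1` on `M` then `(Ind_U M)^{c=-1} = subInv ⟨c⟩` (`minusPart_eq_subInv`),
  whence `minusIndEquiv`.
-/

set_option autoImplicit false
set_option linter.style.haveILetI false

noncomputable section

namespace Fermat.Agent.S56.H419

open Fermat.Agent.S55.PT groupCohomology MulAction

variable {k : Type} [Field k] {G : Type} [Group G]

/-! ### right translations on `G ⧸ U` -/

section RightTr

variable (U : Subgroup G) [U.Normal]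

/-- Right translation by `σ⁻¹` on `G ⧸ U`: `gU ↦ g σ⁻¹ U`. -/
def rightTr (σ : G) : Equiv.Perm (G ⧸ U) := Equiv.mulRight ((σ : G ⧸ U)⁻¹)

@[simp] theorem rightTr_apply (σ : G) (x : G ⧸ U) : rightTr U σ x = x * (σ : G ⧸ U)⁻¹ := rfl

@[simp] theorem rightTr_symm_apply (σ : G) (x : G ⧸ U) :
    (rightTr U σ).symm x = x * (σ : G ⧸ U) := by
  simp [rightTr]

theorem rightTr_mk (σ g : G) : rightTr U σ (g : G ⧸ U) = ((g * σ⁻¹ : G) : G ⧸ U) := rfl

theorem smul_eq_mk_mul (g : G) (x : G ⧸ U) : g • x = (g : G ⧸ U) * x := by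
  induction x using QuotientGroup.induction_on with
  | H a => rfl

theorem rightTr_smul (σ g : G) (x : G ⧸ U) : rightTr U σ (g • x) = g • rightTr U σ x := by
  simp only [rightTr_apply, smul_eq_mk_mul, mul_assoc]

theorem rightTr_one : rightTr U (1 : G) = 1 := by
  ext x
  simp

theorem rightTr_mul (σ τ : G) : rightTr U (σ * τ) = rightTr U σ * rightTr U τ := by
  ext x
  simp [mul_assoc]

end RightTr

/-! ### the right-translation action on `Ind_U M` -/

section IndR

variable (U : Subgroup G) [U.Normal] (M : Rep.{0, 0, 0} k G)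

/-- Right translation by `σ⁻¹` on `Ind_U M`. -/
def indR (σ : G) : ((G ⧸ U) →₀ M) →ₗ[k] ((G ⧸ U) →₀ M) :=
  Finsupp.lmapDomain M k (rightTr U σ)

@[simp] theorem indR_single (σ : G) (x : G ⧸ U) (m : M) :
    indR U M σ (Finsupp.single x m) = Finsupp.single (rightTr U σ x) m := by
  rw [indR, Finsupp.lmapDomain_apply, Finsupp.mapDomain_single]

theorem indR_eq_mapDomain (σ : G) (a : (G ⧸ U) →₀ M) :
    indR U M σ a = Finsupp.mapDomain (rightTr U σ) a := rfl

theorem indR_apply (σ : G) (a : (G ⧸ U) →₀ M) (x : G ⧸ U) :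
    indR U M σ a x = a (x * (σ : G ⧸ U)) := by
  rw [indR_eq_mapDomain, mapDomain_perm_apply, rightTr_symm_apply]

theorem indR_equivariant (σ : G) :
    IsEquivariant (A := indRep U M) (B := indRep U M) (indR U M σ) := by
  intro g
  have : (indR U M σ) ∘ₗ (indAct U M g) = (indAct U M g) ∘ₗ (indR U M σ) := by
    apply Finsupp.lhom_ext
    intro x m
    rw [LinearMap.comp_apply, LinearMap.comp_apply, indAct_single, indR_single, indR_single,
      indAct_single, rightTr_smul]
  exact fun a => LinearMap.congr_fun this a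

theorem indR_one : indR U M (1 : G) = LinearMap.id := by
  apply Finsupp.lhom_ext
  intro x m
  simp [rightTr_one]

theorem indR_mul (σ τ : G) : indR U M (σ * τ) = indR U M σ ∘ₗ indR U M τ := by
  apply Finsupp.lhom_ext
  intro x m
  simp [rightTr_mul]

/-- `indR` only depends on the class of `σ` modulo `U`. -/
theorem indR_congr {σ τ : G} (h : (σ : G ⧸ U) = (τ : G ⧸ U)) : indR U M σ = indR U M τ := by
  apply Finsupp.lhom_ext
  intro x m
  simp [h]

end IndR

/-! ### evaluation of the diagonal action -/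

section Eval

variable (U : Subgroup G) (M : Rep.{0, 0, 0} k G)

theorem indAct_apply (g : G) (a : (G ⧸ U) →₀ M) (x : G ⧸ U) :
    indAct U M g a (g • x) = M.ρ g (a x) := by
  rw [indAct, LinearMap.comp_apply, Finsupp.lmapDomain_apply,
    Finsupp.mapDomain_apply (MulAction.injective g), Finsupp.mapRange.linearMap_apply,
    Finsupp.mapRange_apply]

theorem indRep_ρ_apply (g : G) (a : (G ⧸ U) →₀ M) (x : G ⧸ U) :
    ((indRep U M).ρ g a : (G ⧸ U) →₀ M) (g • x) = M.ρ g (a x) :=
  indAct_apply U M g a x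

/-- `g` fixes `a` iff `a (g • x) = g (a x)` for all `x`. -/
theorem indAct_eq_self_iff (g : G) (a : (G ⧸ U) →₀ M) :
    indAct U M g a = a ↔ ∀ x : G ⧸ U, a (g • x) = M.ρ g (a x) := by
  constructor
  · intro h x
    rw [← indAct_apply U M g a x, h]
  · intro h
    ext x
    have hx : x = g • (g⁻¹ • x) := by rw [smul_inv_smul]
    rw [hx, indAct_apply, h]

/-- `g a = -a` iff `a (g • x) = -g (a x)` for all `x`. -/
theorem indAct_eq_neg_iff (g : G) (a : (G ⧸ U) →₀ M) :
    indAct U M g a = -a ↔ ∀ x : G ⧸ U, a (g • x) = -M.ρ g (a x) := by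
  constructor
  · intro h x
    have := indAct_apply U M g a x
    rw [h, Finsupp.neg_apply] at this
    rw [← this, neg_neg]
  · intro h
    ext x
    have hx : x = g • (g⁻¹ • x) := by rw [smul_inv_smul]
    rw [hx, indAct_apply, Finsupp.neg_apply, h, neg_neg]

end Eval

/-! ### global invariants: `H⁰(G, Ind_U M) = M^U` -/

section Global

variable (U : Subgroup G) (M : Rep.{0, 0, 0} k G)

/-- The `U`-invariants of `M`. -/
def invU : Submodule k M where
  carrier := {m | ∀ u ∈ U, M.ρ u m = m}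
  add_mem' := by
    intro a b ha hb u hu
    rw [map_add, ha u hu, hb u hu]
  zero_mem' := by
    intro u _
    rw [map_zero]
  smul_mem' := by
    intro c a ha u hu
    rw [map_smul, ha u hu]

variable {U M} in
theorem mem_invU {m : M} : m ∈ invU U M ↔ ∀ u ∈ U, M.ρ u m = m := Iff.rfl

/-- `M^U` is stable under `G` when `U` is normal. -/
theorem ρ_mem_invU [U.Normal] (σ : G) {m : M} (hm : m ∈ invU U M) : M.ρ σ m ∈ invU U M := by
  intro u hu
  have h1 : σ⁻¹ * u * σ ∈ U := by
    have := (inferInstance : U.Normal).conj_mem u hu σ⁻¹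
    simpa using this
  have h2 : u * σ = σ * (σ⁻¹ * u * σ) := by group
  calc M.ρ u (M.ρ σ m) = M.ρ (u * σ) m := by rw [map_mul]; rfl
    _ = M.ρ (σ * (σ⁻¹ * u * σ)) m := by rw [h2]
    _ = M.ρ σ (M.ρ (σ⁻¹ * u * σ) m) := by rw [map_mul]; rfl
    _ = M.ρ σ m := by rw [hm _ h1]

/-- The action of `σ` on `M^U` (`U` normal). -/
def invUAct [U.Normal] (σ : G) : ↥(invU U M) →ₗ[k] ↥(invU U M) :=
  (M.ρ σ).restrict fun _ hm => ρ_mem_invU U M σ hm

@[simp] theorem coe_invUAct [U.Normal] (σ : G) (m : ↥(invU U M)) :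
    (invUAct U M σ m : M) = M.ρ σ m.1 := rfl

theorem mem_H0_indRep_iff (a : (G ⧸ U) →₀ M) :
    (a : indRep U M) ∈ LevelSys.H0 (indRep U M) ↔
      ∀ (g : G) (x : G ⧸ U), a (g • x) = M.ρ g (a x) := by
  constructor
  · intro h g
    exact (indAct_eq_self_iff U M g a).1 (h g)
  · intro h g
    exact (indAct_eq_self_iff U M g a).2 (h g)

/-- the function `gU ↦ g m` attached to a `U`-invariant `m` -/
def orbitFun (m : ↥(invU U M)) : G ⧸ U → M :=
  Quotient.lift (s := QuotientGroup.leftRel U) (fun g : G => M.ρ g m.1) (by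
    intro a b hab'
    have hab : a⁻¹ * b ∈ U := QuotientGroup.leftRel_apply.mp hab'
    have hb : b = a * (a⁻¹ * b) := by group
    show M.ρ a m.1 = M.ρ b m.1
    conv_rhs => rw [hb, map_mul]
    show M.ρ a m.1 = M.ρ a (M.ρ (a⁻¹ * b) m.1)
    rw [m.2 _ hab])

@[simp] theorem orbitFun_mk (m : ↥(invU U M)) (g : G) :
    orbitFun U M m (g : G ⧸ U) = M.ρ g m.1 := rfl

theorem orbitFun_smul (m : ↥(invU U M)) (g : G) (x : G ⧸ U) :
    orbitFun U M m (g • x) = M.ρ g (orbitFun U M m x) := by
  induction x using QuotientGroup.induction_on with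
  | H a =>
    show M.ρ (g * a) m.1 = M.ρ g (M.ρ a m.1)
    rw [map_mul]; rfl

/-- **Global invariants.** `H⁰(G, Ind_U M) ≃ M^U`, `a ↦ a(U)`. -/
def indH0Equiv [U.FiniteIndex] : ↥(LevelSys.H0 (indRep U M)) ≃ₗ[k] ↥(invU U M) where
  toFun a := ⟨(a.1 : (G ⧸ U) →₀ M) ((1 : G) : G ⧸ U), by
    intro u hu
    have h := (mem_H0_indRep_iff U M a.1).1 a.2 u ((1 : G) : G ⧸ U)
    rw [← h]
    congr 1
    show ((u * 1 : G) : G ⧸ U) = ((1 : G) : G ⧸ U)
    rw [mul_one, QuotientGroup.eq]
    simpa using hu⟩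
  map_add' _ _ := rfl
  map_smul' _ _ := rfl
  invFun m := ⟨(Finsupp.equivFunOnFinite.symm (orbitFun U M m) : (G ⧸ U) →₀ M), by
    rw [mem_H0_indRep_iff]
    intro g x
    simp only [Finsupp.equivFunOnFinite_symm_apply_apply]
    exact orbitFun_smul U M m g x⟩
  left_inv a := by
    apply Subtype.ext
    apply Finsupp.ext
    intro x
    induction x using QuotientGroup.induction_on with
    | H g =>
      have h := (mem_H0_indRep_iff U M a.1).1 a.2 g ((1 : G) : G ⧸ U)
      show (Finsupp.equivFunOnFinite.symm (orbitFun U M _) : (G ⧸ U) →₀ M) (g : G ⧸ U) = _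
      rw [Finsupp.equivFunOnFinite_symm_apply_apply, orbitFun_mk]
      show M.ρ g ((a.1 : (G ⧸ U) →₀ M) ((1 : G) : G ⧸ U)) = _
      rw [← h]
      congr 1
      show ((g * 1 : G) : G ⧸ U) = (g : G ⧸ U)
      rw [mul_one]
  right_inv m := by
    apply Subtype.ext
    show (Finsupp.equivFunOnFinite.symm (orbitFun U M m) : (G ⧸ U) →₀ M) ((1 : G) : G ⧸ U) = m.1
    rw [Finsupp.equivFunOnFinite_symm_apply_apply, orbitFun_mk, map_one]
    rfl

@[simp] theorem coe_indH0Equiv [U.FiniteIndex] (a : ↥(LevelSys.H0 (indRep U M))) :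
    (indH0Equiv U M a : M) = (a.1 : (G ⧸ U) →₀ M) ((1 : G) : G ⧸ U) := rfl

/-- **Intertwining (global).** Under `H⁰(G, Ind_U M) ≃ M^U` the right translation `indR σ`
is the action of `σ` on `M^U`. -/
theorem indH0Equiv_indR [U.Normal] [U.FiniteIndex] (σ : G)
    (a : ↥(LevelSys.H0 (indRep U M))) :
    indH0Equiv U M (pushH0 (A := indRep U M) (B := indRep U M) (indR U M σ)
      (indR_equivariant U M σ) a) = invUAct U M σ (indH0Equiv U M a) := by
  apply Subtype.ext
  rw [coe_indH0Equiv, coe_invUAct, coe_indH0Equiv]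
  show indR U M σ (a.1 : (G ⧸ U) →₀ M) ((1 : G) : G ⧸ U) = _
  rw [indR_apply]
  have h := (mem_H0_indRep_iff U M a.1).1 a.2 σ ((1 : G) : G ⧸ U)
  rw [← h, smul_eq_mk_mul, QuotientGroup.mk_one, one_mul, mul_one]

end Global

/-! ### invariants under a subgroup acting trivially on the coefficients -/

section Sub

variable (D : Subgroup G) (U : Subgroup G) (M : Rep.{0, 0, 0} k G)

/-- The double cosets `D \ G / U`, as the orbits of `D` on `G ⧸ U`. -/
abbrev DC : Type := orbitRel.Quotient D (G ⧸ U)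

/-- The elements of `Ind_U M` which are constant on the `D`-orbits of `G ⧸ U`. -/
abbrev subInv : Submodule k ((G ⧸ U) →₀ M) := orbitInv k D (G ⧸ U) M

theorem mem_subInv_iff (a : (G ⧸ U) →₀ M) :
    a ∈ subInv D U M ↔ ∀ d ∈ D, ∀ x : G ⧸ U, a (d • x) = a x := by
  constructor
  · intro h d hd x
    exact h ⟨d, hd⟩ x
  · intro h d x
    exact h d.1 d.2 x

/-- `subInv D U M ≃ (D\G/U →₀ M)`. -/
def subInvEquiv [U.FiniteIndex] : ↥(subInv D U M) ≃ₗ[k] (DC D U →₀ M) :=
  orbitInvEquiv k D (G ⧸ U) M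

@[simp] theorem subInvEquiv_apply_mk [U.FiniteIndex] (a : ↥(subInv D U M)) (x : G ⧸ U) :
    subInvEquiv D U M a (Quotient.mk (orbitRel D (G ⧸ U)) x) = a.1 x :=
  orbitInvEquiv_apply_mk k D (G ⧸ U) M a x

theorem rightTr_subgroup_smul [U.Normal] (σ : G) (d : D) (x : G ⧸ U) :
    rightTr U σ (d • x) = d • rightTr U σ x :=
  rightTr_smul U σ d.1 x

/-- The permutation of `D\G/U` induced by right translation by `σ⁻¹`. -/
def dcPerm [U.Normal] (σ : G) : Equiv.Perm (DC D U) :=
  orbitPerm (rightTr U σ) (rightTr_subgroup_smul D U σ)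

@[simp] theorem dcPerm_mk [U.Normal] (σ : G) (x : G ⧸ U) :
    dcPerm D U σ (Quotient.mk (orbitRel D (G ⧸ U)) x) =
      Quotient.mk (orbitRel D (G ⧸ U)) (x * (σ : G ⧸ U)⁻¹) := rfl

@[simp] theorem dcPerm_symm_mk [U.Normal] (σ : G) (x : G ⧸ U) :
    (dcPerm D U σ).symm (Quotient.mk (orbitRel D (G ⧸ U)) x) =
      Quotient.mk (orbitRel D (G ⧸ U)) (x * (σ : G ⧸ U)) := by
  show Quotient.mk (orbitRel D (G ⧸ U)) ((rightTr U σ).symm x) = _
  rw [rightTr_symm_apply]

theorem dcPerm_one [U.Normal] : dcPerm D U (1 : G) = 1 := by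
  ext ω
  induction ω using Quotient.inductionOn with
  | h x => simp

theorem dcPerm_mul [U.Normal] (σ τ : G) : dcPerm D U (σ * τ) = dcPerm D U σ * dcPerm D U τ := by
  ext ω
  induction ω using Quotient.inductionOn with
  | h x => simp [mul_assoc]

theorem indR_mem_subInv [U.Normal] (σ : G) {a : (G ⧸ U) →₀ M} (ha : a ∈ subInv D U M) :
    indR U M σ a ∈ subInv D U M :=
  mapDomain_mem_orbitInv (rightTr U σ) (rightTr_subgroup_smul D U σ) ha

/-- Right translation on `subInv D U M`. -/
def subInvR [U.Normal] (σ : G) : ↥(subInv D U M) →ₗ[k] ↥(subInv D U M) :=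
  (indR U M σ).restrict fun _ ha => indR_mem_subInv D U M σ ha

@[simp] theorem coe_subInvR [U.Normal] (σ : G) (a : ↥(subInv D U M)) :
    (subInvR D U M σ a : (G ⧸ U) →₀ M) = indR U M σ a.1 := rfl

/-- **Intertwining (double cosets).** Under `subInv D U M ≃ (D\G/U →₀ M)` the right translation
`indR σ` is the permutation map of `dcPerm D U σ`. -/
theorem subInvEquiv_indR [U.Normal] [U.FiniteIndex] (σ : G) (a : ↥(subInv D U M)) :
    subInvEquiv D U M (subInvR D U M σ a) =
      Finsupp.mapDomain (dcPerm D U σ) (subInvEquiv D U M a) :=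
  orbitInvEquiv_mapDomain (rightTr U σ) (rightTr_subgroup_smul D U σ) a

theorem finrank_subInv [U.FiniteIndex] [Module.Finite k M] :
    Module.finrank k ↥(subInv D U M) = Nat.card (DC D U) * Module.finrank k M :=
  finrank_orbitInv

end Sub

/-! ### local invariants, trivial coefficients -/

section Local

variable {G' : Type} [Group G'] (r : G' →* G) (U : Subgroup G) (M : Rep.{0, 0, 0} k G)

/-- If the image of `r` acts trivially on `M`, then `H⁰(G', (Ind_U M)|_{G'})` consists of the
functions constant on the orbits of `r.range`. -/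
theorem resH0_eq_subInv (hM : ∀ (g : G') (m : M), M.ρ (r g) m = m) :
    (LevelSys.H0 (Rep.res r (indRep U M)) : Submodule k ((G ⧸ U) →₀ M)) =
      subInv r.range U M := by
  ext a
  rw [mem_subInv_iff]
  constructor
  · intro h d hd x
    obtain ⟨g, rfl⟩ := hd
    have h1 : indAct U M (r g) a = a := h g
    rw [(indAct_eq_self_iff U M (r g) a).1 h1 x, hM]
  · intro h g
    show indAct U M (r g) a = a
    rw [indAct_eq_self_iff]
    intro x
    rw [h (r g) ⟨g, rfl⟩ x, hM]

/-- **Local invariants.** If the image of `r` acts trivially on `M`: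
`H⁰(G', (Ind_U M)|_{G'}) ≃ (r(G')\G/U →₀ M)`. -/
def resIndH0Equiv [U.FiniteIndex] (hM : ∀ (g : G') (m : M), M.ρ (r g) m = m) :
    ↥(LevelSys.H0 (Rep.res r (indRep U M))) ≃ₗ[k] (DC r.range U →₀ M) :=
  (LinearEquiv.ofEq _ _ (resH0_eq_subInv r U M hM)).trans (subInvEquiv r.range U M)

@[simp] theorem resIndH0Equiv_apply_mk [U.FiniteIndex]
    (hM : ∀ (g : G') (m : M), M.ρ (r g) m = m)
    (a : ↥(LevelSys.H0 (Rep.res r (indRep U M)))) (x : G ⧸ U) :
    resIndH0Equiv r U M hM a (Quotient.mk (orbitRel r.range (G ⧸ U)) x) =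
      (a.1 : (G ⧸ U) →₀ M) x := by
  simp [resIndH0Equiv]

theorem indR_res_equivariant [U.Normal] (σ : G) :
    IsEquivariant (A := Rep.res r (indRep U M)) (B := Rep.res r (indRep U M)) (indR U M σ) :=
  fun g a => indR_equivariant U M σ (r g) a

/-- **Intertwining (local).** -/
theorem resIndH0Equiv_indR [U.Normal] [U.FiniteIndex]
    (hM : ∀ (g : G') (m : M), M.ρ (r g) m = m) (σ : G)
    (a : ↥(LevelSys.H0 (Rep.res r (indRep U M)))) :
    resIndH0Equiv r U M hM
        (pushH0 (A := Rep.res r (indRep U M)) (B := Rep.res r (indRep U M)) (indR U M σ)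
          (indR_res_equivariant r U M σ) a) =
      Finsupp.mapDomain (dcPerm r.range U σ) (resIndH0Equiv r U M hM a) := by
  ext ω
  induction ω using Quotient.inductionOn with
  | h x =>
    rw [resIndH0Equiv_apply_mk, mapDomain_perm_apply, dcPerm_symm_mk, resIndH0Equiv_apply_mk]
    exact indR_apply U M σ a.1 x

end Local

/-! ### the `(-1)`-eigenspace of an element acting by `-1` on the coefficients -/

section Minus

variable (c : G) (U : Subgroup G) (M : Rep.{0, 0, 0} k G)

/-- If `c` acts by `-1` on `M`, the `(-1)`-eigenspace of `c` on `Ind_U M` consists of the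
functions constant on the orbits of `⟨c⟩`. -/
theorem minusPart_eq_subInv (hc : ∀ m : M, M.ρ c m = -m) :
    (minusPart c (indRep U M) : Submodule k ((G ⧸ U) →₀ M)) =
      subInv (Subgroup.zpowers c) U M := by
  ext a
  rw [mem_minusPart, mem_subInv_iff]
  have key : (indRep U M).ρ c a = -a ↔ ∀ x : G ⧸ U, a (c • x) = a x := by
    show indAct U M c a = -a ↔ _
    rw [indAct_eq_neg_iff]
    simp only [hc, neg_neg]
  rw [key]
  constructor
  · intro h d hd x
    obtain ⟨n, rfl⟩ := Subgroup.mem_zpowers_iff.1 hd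
    have hpos : ∀ (j : ℕ) (y : G ⧸ U), a (c ^ j • y) = a y := by
      intro j
      induction j with
      | zero => intro y; simp
      | succ j ih =>
        intro y
        rw [pow_succ, mul_smul, ih, h]
    obtain ⟨j, rfl | rfl⟩ := Int.eq_nat_or_neg n
    · rw [zpow_natCast]
      exact hpos j x
    · rw [zpow_neg, zpow_natCast]
      have := hpos j ((c ^ j)⁻¹ • x)
      rw [smul_inv_smul] at this
      exact this.symm
  · intro h x
    exact h c (Subgroup.mem_zpowers c) x

/-- **Archimedean term.** If `c` acts by `-1` on `M`: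
`(Ind_U M)^{c=-1} ≃ (⟨c⟩\G/U →₀ M)`. -/
def minusIndEquiv [U.FiniteIndex] (hc : ∀ m : M, M.ρ c m = -m) :
    ↥(minusPart c (indRep U M)) ≃ₗ[k] (DC (Subgroup.zpowers c) U →₀ M) :=
  (LinearEquiv.ofEq _ _ (minusPart_eq_subInv c U M hc)).trans
    (subInvEquiv (Subgroup.zpowers c) U M)

@[simp] theorem minusIndEquiv_apply_mk [U.FiniteIndex] (hc : ∀ m : M, M.ρ c m = -m)
    (a : ↥(minusPart c (indRep U M))) (x : G ⧸ U) :
    minusIndEquiv c U M hc a (Quotient.mk (orbitRel (Subgroup.zpowers c) (G ⧸ U)) x) =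
      (a.1 : (G ⧸ U) →₀ M) x := by
  simp [minusIndEquiv]

theorem indR_mem_minusPart [U.Normal] (σ : G) {a : (G ⧸ U) →₀ M}
    (ha : (a : indRep U M) ∈ minusPart c (indRep U M)) :
    (indR U M σ a : indRep U M) ∈ minusPart c (indRep U M) := by
  rw [mem_minusPart] at ha ⊢
  rw [← indR_equivariant U M σ c a, ha, map_neg]

/-- Right translation on the `(-1)`-eigenspace. -/
def minusR [U.Normal] (σ : G) :
    ↥(minusPart c (indRep U M)) →ₗ[k] ↥(minusPart c (indRep U M)) :=
  (indR U M σ).restrict fun _ ha => indR_mem_minusPart c U M σ ha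

@[simp] theorem coe_minusR [U.Normal] (σ : G) (a : ↥(minusPart c (indRep U M))) :
    ((minusR c U M σ a).1 : (G ⧸ U) →₀ M) = indR U M σ a.1 := rfl

/-- **Intertwining (archimedean).** -/
theorem minusIndEquiv_indR [U.Normal] [U.FiniteIndex] (hc : ∀ m : M, M.ρ c m = -m) (σ : G)
    (a : ↥(minusPart c (indRep U M))) :
    minusIndEquiv c U M hc (minusR c U M σ a) =
      Finsupp.mapDomain (dcPerm (Subgroup.zpowers c) U σ) (minusIndEquiv c U M hc a) := by
  ext ω
  induction ω using Quotient.inductionOn with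
  | h x =>
    rw [minusIndEquiv_apply_mk, mapDomain_perm_apply, dcPerm_symm_mk, minusIndEquiv_apply_mk]
    exact indR_apply U M σ a.1 x

end Minus

end Fermat.Agent.S56.H419

end
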