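import Fermat.Agent.S56.H419.H0Herb
import Fermat.Agent.S56.Euler.Big.Red
import Fermat.Agent.S56.Euler.Big.H2CPSpec
import Fermat.Agent.S56.Euler.H184.Kum
import Fermat.Agent.S56.Euler.H726.Sha2

/-!
# S56 / W-BASE / BASE-BIG, leaf ASM (subtask 697, helper419): assembly of CHAR-EULER-BIG

    theorem charEulerBig_of : (∀ S, Euler.H2CPSpec p S) → Sha2IndSpec p → ClSpec p →
        P1CharSpec p → Euler.CharEulerBigSpec p

`X = Ind_U μ_p`, `U = G_F`, `F/ℚ` finite Galois unramified outside `S ∋ p`, `χ_p|_U = 1`,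
`R_σ = indR U μ σ`, `τ = σ|_F`.  The four characteristic polynomials of `H614.CharpolyId`:

* `P0` : `cp(R_σ | H⁰ X) = X - χ(σ)`                      (`charpoly_H0_ind_mu`, from `H0Final`);
* `P∞` : `cp(R_σ | X^{c=-1}) = permCharpoly (τ⁻¹ | InfinitePlace F)`  (`charpoly_minusMap_mu`);
* `P2` : `cp(R_σ | H²_S X) · (X - 1) = permCharpoly (primePerm ℚ F (primesT S) τ)`
         (`charpoly_H2_of_h2cp`, from `Euler.H2CPSpec p S`, `Ш²_S(X) = 0` and `H0Final`);
* `P1` : `cp(R_σ | H¹_S X) · (X - 1) = (X - χ(σ)) · permInf · permFin`   — INPUT `P1CharSpec p`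
         (KUM + HERB under CL, helper184).

Inputs, frozen here as `Prop`s (each in the weakest form the assembly needs):

* `P1CharSpec p`   — P1-CHAR (helper184, note #7952);
* `ClSpec p`       — CL: `∃ S ⊇ S₁, NoPTorsH1E p S U` (helper74 / helper833);
* `Sha2IndSpec p`  — SHA: `∃ S₁ ⊇ S₀, ∀ T ⊇ S₁, Ш²_T(Ind_U μ_p) = 0`; PROVED from Theorem D for
                     all `T` by helper726 (`sha2Ind_of`).

Nothing unproved in this file.
-/

set_option autoImplicit false
set_option linter.style.haveILetI false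
set_option linter.unusedSectionVars false

noncomputable section

open scoped Pointwise NumberField

namespace Fermat.Agent.S56.H419

open Fermat.Agent.S55.PT Fermat.Agent.S55.G Fermat.Agent.S56.H614 ExtCitation MulAction
  NumberField Polynomial groupCohomology

attribute [local instance] Fermat.Agent.S55.Bridge.isAlgebraic_Qbar
  Fermat.Agent.S55.Bridge.isGalois_Qbar

/-! ### `permCharpoly` of inverse permutations -/

section Symm

variable (k : Type*) [Field k] {X : Type*} [Finite X]

/-- Mutually inverse maps have the same `permCharpoly`. -/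
theorem permCharpoly_eq_of_inverse (σ₁ σ₂ : X → X) (h : ∀ x, σ₁ (σ₂ x) = x)
    (h' : ∀ x, σ₂ (σ₁ x) = x) : permCharpoly k σ₁ = permCharpoly k σ₂ := by
  classical
  letI : Fintype X := Fintype.ofFinite X
  rw [permCharpoly_eq_matrix, permCharpoly_eq_matrix, ← Matrix.charpoly_transpose]
  congr 1
  ext i j
  simp only [Matrix.transpose_apply, Matrix.of_apply]
  by_cases hij : σ₂ i = j
  · have : σ₁ j = i := by rw [← hij, h]
    rw [if_pos hij, if_pos this]
  · have : ¬ σ₁ j = i := by
      intro hc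
      apply hij
      rw [← hc, h']
    rw [if_neg hij, if_neg this]

end Symm

section PrimePermInv

variable (F : IntermediateField ℚ (AlgebraicClosure ℚ)) [NumberField F] [IsGalois ℚ F]
  [FiniteDimensional ℚ F] {k : Type} [Field k]

/-- `permCharpoly` of `primePerm τ⁻¹` and `primePerm τ` agree. -/
theorem permCharpoly_primePerm_inv (S : Finset Nat.Primes) (τ : F ≃ₐ[ℚ] F) :
    permCharpoly k (primePerm ℚ F (primesT S) τ⁻¹) =
      permCharpoly k (primePerm ℚ F (primesT S) τ) := by
  apply permCharpoly_eq_of_inverse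
  · intro w
    apply Subtype.ext
    show OrdH707.smulH ℚ F (τ⁻¹)⁻¹ (OrdH707.smulH ℚ F τ⁻¹ w.1) = w.1
    rw [← OrdH707.smulH_mul, inv_inv, mul_inv_cancel, OrdH707.smulH_one]
  · intro w
    apply Subtype.ext
    show OrdH707.smulH ℚ F τ⁻¹ (OrdH707.smulH ℚ F (τ⁻¹)⁻¹ w.1) = w.1
    rw [← OrdH707.smulH_mul, inv_inv, inv_mul_cancel, OrdH707.smulH_one]

end PrimePermInv

/-! ### the four terms for `X = Ind_U μ_p` -/

section Terms

variable (p : ℕ) [Fact p.Prime] (F : IntermediateField ℚ (AlgebraicClosure ℚ)) [NumberField F]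
  [IsGalois ℚ F] [FiniteDimensional ℚ F] (S : Finset Nat.Primes) (σ : GQ)

/-- **P0.** -/
theorem charpoly_H0_ind_mu (hχ : ∀ u ∈ F.fixingSubgroup, cycloChar p u = 1) :
    (pushH0 (A := indRep F.fixingSubgroup (mu p)) (B := indRep F.fixingSubgroup (mu p))
        (indR F.fixingSubgroup (mu p) σ)
        (indR_equivariant F.fixingSubgroup (mu p) σ)).charpoly =
      X - C (((cycloChar p σ : (ZMod p)ˣ) : ZMod p)) := by
  haveI : Module.Finite (ZMod p) (mu p) := inferInstanceAs (Module.Finite (ZMod p) (ZMod p))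
  have h1 : Module.finrank (ZMod p) (mu p) = 1 := Module.finrank_self (ZMod p)
  rw [charpoly_H0_glob_char F.fixingSubgroup (mu p) (cycloChar p) (mu_ρ_apply p) σ,
    finrank_invU_of_trivial F.fixingSubgroup (mu p) (cycloChar p) (mu_ρ_apply p) hχ, h1, pow_one]

/-- **P∞**, in the `minusMap` vocabulary of `H614.CharpolyId`. -/
theorem charpoly_minusMap_mu :
    (minusMap complexConjugation (A := indRep F.fixingSubgroup (mu p))
      (B := indRep F.fixingSubgroup (mu p)) (indR F.fixingSubgroup (mu p) σ)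
      (indR_equivariant F.fixingSubgroup (mu p) σ)).charpoly =
      permCharpoly (ZMod p) (fun w : InfinitePlace F => (resF F σ)⁻¹ • w) := by
  haveI : Module.Finite (ZMod p) (mu p) := inferInstanceAs (Module.Finite (ZMod p) (ZMod p))
  have h1 : Module.finrank (ZMod p) (mu p) = 1 := Module.finrank_self (ZMod p)
  exact charpoly_minus F (mu p) (mu_ρ_complexConjugation p) h1 σ

/-- the global `H⁰` of the Tate dual, for the transpose of `R_σ` -/
theorem charpoly_H0_glob_tdual_dualMap
    (T : Module.Dual (ZMod p) (indRep F.fixingSubgroup (mu p)) →ₗ[ZMod p]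
      Module.Dual (ZMod p) (indRep F.fixingSubgroup (mu p)))
    (hT : IsEquivariant (A := tdual p (indRep F.fixingSubgroup (mu p)))
      (B := tdual p (indRep F.fixingSubgroup (mu p))) T)
    (h : T = (indR F.fixingSubgroup (mu p) σ).dualMap) :
    (pushH0 (A := tdual p (indRep F.fixingSubgroup (mu p)))
      (B := tdual p (indRep F.fixingSubgroup (mu p))) T hT).charpoly = X - 1 := by
  haveI : Module.Finite (ZMod p) (mu p) := inferInstanceAs (Module.Finite (ZMod p) (ZMod p))
  have h1 : Module.finrank (ZMod p) (mu p) = 1 := Module.finrank_self (ZMod p)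
  have h2 : T = indRDual F.fixingSubgroup (mu p) σ⁻¹ := by
    rw [h, indRDual, inv_inv]
  subst h2
  exact charpoly_H0_glob_tdual F.fixingSubgroup (mu p) (cycloChar p) (mu_ρ_apply p) h1 σ⁻¹

/-- the local `H⁰` of the Tate dual, for the transpose of `R_σ` -/
theorem charpoly_H0_loc_tdual_dualMap
    (T : Module.Dual (ZMod p) (indRep F.fixingSubgroup (mu p)) →ₗ[ZMod p]
      Module.Dual (ZMod p) (indRep F.fixingSubgroup (mu p)))
    (hT : ∀ q : Nat.Primes,
      IsEquivariant (A := Rep.res (rl q) (tdual p (indRep F.fixingSubgroup (mu p))))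
        (B := Rep.res (rl q) (tdual p (indRep F.fixingSubgroup (mu p)))) T)
    (h : T = (indR F.fixingSubgroup (mu p) σ).dualMap) :
    ∏ q ∈ S, (pushH0 (A := Rep.res (rl q) (tdual p (indRep F.fixingSubgroup (mu p))))
      (B := Rep.res (rl q) (tdual p (indRep F.fixingSubgroup (mu p)))) T (hT q)).charpoly =
      permCharpoly (ZMod p) (primePerm ℚ F (primesT S) (resF F σ)) := by
  haveI : Module.Finite (ZMod p) (mu p) := inferInstanceAs (Module.Finite (ZMod p) (ZMod p))
  have h1 : Module.finrank (ZMod p) (mu p) = 1 := Module.finrank_self (ZMod p)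
  have h2 : T = indRDual F.fixingSubgroup (mu p) σ⁻¹ := by
    rw [h, indRDual, inv_inv]
  subst h2
  rw [← permCharpoly_primePerm_inv F S (resF F σ), ← map_inv]
  exact charpoly_H0_loc_tdual F (mu p) (cycloChar p) (mu_ρ_apply p) h1 S σ⁻¹

/-- `Ind_U μ_p` is smooth for the levels of `S` when `U = G_F` is a level on which `χ_p` is
trivial. -/
theorem isUSmooth_ind_mu (hF : F.IsUnramifiedOutside S)
    (hχ : ∀ u ∈ F.fixingSubgroup, cycloChar p u = 1) :
    (globalLevels S).IsUSmooth (indRep F.fixingSubgroup (mu p)) := by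
  have hμtriv : ∀ u ∈ F.fixingSubgroup, (mu p).ρ u = 1 := by
    intro u hu
    apply LinearMap.ext
    intro x
    rw [mu_ρ_apply, hχ u hu]
    simp
  exact isUSmooth_of_trivial (globalLevels S) (U := F.fixingSubgroup) ⟨F, hF, rfl⟩
    (fun u hu => indRep_ρ_eq_one F.fixingSubgroup (mu p) hμtriv u hu)

/-- **P2** from H2-CP: `cp(R_σ | H²_S X) · (X - 1) = permCharpoly (primePerm τ)`. -/
theorem charpoly_H2_of_h2cp (hp2 : p ≠ 2) (hpS : pPrime p ∈ S)
    (h2cp : Fermat.Agent.S56.Euler.H2CPSpec p S)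
    (hF : F.IsUnramifiedOutside S) (hχ : ∀ u ∈ F.fixingSubgroup, cycloChar p u = 1)
    (hsha : Sha2 (hrl S) (indRep F.fixingSubgroup (mu p)) = ⊥)
    [Module.Finite (ZMod p) (indRep F.fixingSubgroup (mu p))]
    [Module.Finite (ZMod p) ((globalLevels S).H2 (indRep F.fixingSubgroup (mu p)))] :
    (pushH2 (A := indRep F.fixingSubgroup (mu p)) (B := indRep F.fixingSubgroup (mu p))
        (indR F.fixingSubgroup (mu p) σ)
        (indR_equivariant F.fixingSubgroup (mu p) σ) (globalLevels S)).charpoly * (X - 1) =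
      permCharpoly (ZMod p) (primePerm ℚ F (primesT S) (resF F σ)) := by
  have h := h2cp hp2 hpS (indRep F.fixingSubgroup (mu p)) (indR F.fixingSubgroup (mu p) σ)
    (indR_equivariant F.fixingSubgroup (mu p) σ) (isUSmooth_ind_mu p F S hF hχ) hsha
    inferInstance inferInstance
  rw [charpoly_H0_glob_tdual_dualMap p F σ _ _ rfl] at h
  rw [h]
  exact charpoly_H0_loc_tdual_dualMap p F S σ _
    (fun q => (dualMap_equivariant (cycloChar p) (A := indRep F.fixingSubgroup (mu p))
      (B := indRep F.fixingSubgroup (mu p)) (indR F.fixingSubgroup (mu p) σ)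
      (indR_equivariant F.fixingSubgroup (mu p) σ)).res (rl q)) rfl

end Terms

/-! ### the frozen inputs -/

section Specs

variable (p : ℕ) [Fact p.Prime]

/-- (P1-CHAR, helper184) **the `H¹` term**: under `H¹_S(Ind_U 𝔼)[p] = 0` (CL), Kummer theory
identifies `H¹_S(Ind_U μ_p)` with `E_S(F)/p` and Herbrand's unit theorem gives its
characteristic polynomial. -/
def P1CharSpec : Prop :=
  p ≠ 2 → ∀ S : Finset Nat.Primes, pPrime p ∈ S →
    ∀ (F : IntermediateField ℚ (AlgebraicClosure ℚ)) [NumberField F] [IsGalois ℚ F]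
      [FiniteDimensional ℚ F],
      F.IsUnramifiedOutside S → (∀ u ∈ F.fixingSubgroup, cycloChar p u = 1) →
      Fermat.Agent.S56.Euler.H184.NoPTorsH1E p S F.fixingSubgroup →
      ∀ σ : GQ, ¬ p ∣ orderOf (σ : GQ ⧸ F.fixingSubgroup) →
        ∀ (_ : Module.Finite (ZMod p) ((globalLevels S).H1 (indRep F.fixingSubgroup (mu p)))),
          (pushH1 (A := indRep F.fixingSubgroup (mu p)) (B := indRep F.fixingSubgroup (mu p))
              (indR F.fixingSubgroup (mu p) σ)
              (indR_equivariant F.fixingSubgroup (mu p) σ) (globalLevels S)).charpoly *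
              (X - 1) =
            (X - C (((cycloChar p σ : (ZMod p)ˣ) : ZMod p))) *
              permCharpoly (ZMod p) (fun w : InfinitePlace F => (resF F σ)⁻¹ • w) *
              permCharpoly (ZMod p) (primePerm ℚ F (primesT S) (resF F σ))

/-- (CL) **killing the `p`-part of the `S`-class group**: every normal level of `S₁` satisfies
`NoPTorsH1E` for some bigger finite set of primes. -/
def ClSpec : Prop :=
  p ≠ 2 → ∀ S₁ : Finset Nat.Primes, pPrime p ∈ S₁ →
    ∀ (U : Subgroup GQ) [U.Normal], U ∈ (globalLevels S₁).levels →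
      (∀ u ∈ U, cycloChar p u = 1) →
      ∃ S : Finset Nat.Primes, S₁ ⊆ S ∧ Fermat.Agent.S56.Euler.H184.NoPTorsH1E p S U

/-- (SHA) **vanishing of `Ш²`** for `Ind_U μ_p`, for all big enough sets of primes. -/
def Sha2IndSpec : Prop :=
  ∀ S₀ : Finset Nat.Primes, pPrime p ∈ S₀ →
    ∀ (U : Subgroup GQ) [U.Normal], U ∈ (globalLevels S₀).levels →
      (∀ u ∈ U, cycloChar p u = 1) →
      ∃ S₁ : Finset Nat.Primes, S₀ ⊆ S₁ ∧
        ∀ T : Finset Nat.Primes, S₁ ⊆ T → Sha2 (hrl T) (indRep U (mu p)) = ⊥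

variable {p}

/-- SHA from Theorem D (helper726). -/
theorem sha2Ind_of (hD : ∀ T : Finset Nat.Primes, TheoremDSpec p T) : Sha2IndSpec p := by
  intro S₀ _ U hUn hU hχ
  refine Fermat.Agent.S56.Euler.H726.exists_sha2_indMu_eq_bot p S₀ (fun T _ => hD T) U hU hUn ?_
  intro u hu
  apply LinearMap.ext
  intro x
  rw [mu_ρ_apply, hχ u hu]
  simp

end Specs

/-! ### the assembly -/

section Asm

variable {p : ℕ} [Fact p.Prime]

/-- **The equivariant Euler–Poincaré identity for `Ind_U μ_p` at one `S`**, from its four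
terms. -/
theorem charpolyId_of_terms (hp2 : p ≠ 2) (S : Finset Nat.Primes) (hpS : pPrime p ∈ S)
    (F : IntermediateField ℚ (AlgebraicClosure ℚ)) [NumberField F] [IsGalois ℚ F]
    [FiniteDimensional ℚ F] (hF : F.IsUnramifiedOutside S)
    (hχ : ∀ u ∈ F.fixingSubgroup, cycloChar p u = 1)
    (h2cp : Fermat.Agent.S56.Euler.H2CPSpec p S)
    (hsha : Sha2 (hrl S) (indRep F.fixingSubgroup (mu p)) = ⊥) (σ : GQ)
    (hP1 : ∀ (_ : Module.Finite (ZMod p)
        ((globalLevels S).H1 (indRep F.fixingSubgroup (mu p)))),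
      (pushH1 (A := indRep F.fixingSubgroup (mu p)) (B := indRep F.fixingSubgroup (mu p))
          (indR F.fixingSubgroup (mu p) σ)
          (indR_equivariant F.fixingSubgroup (mu p) σ) (globalLevels S)).charpoly * (X - 1) =
        (X - C (((cycloChar p σ : (ZMod p)ˣ) : ZMod p))) *
          permCharpoly (ZMod p) (fun w : InfinitePlace F => (resF F σ)⁻¹ • w) *
          permCharpoly (ZMod p) (primePerm ℚ F (primesT S) (resF F σ))) :
    CharpolyId (globalLevels S) complexConjugation (indRep F.fixingSubgroup (mu p))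
      (indR F.fixingSubgroup (mu p) σ) (indR_equivariant F.fixingSubgroup (mu p) σ) := by
  intro hX hH1 hH2
  have e1 := hP1 hH1
  have e2 := charpoly_H2_of_h2cp p F S σ hp2 hpS h2cp hF hχ hsha
  have e0 := charpoly_H0_ind_mu p F σ hχ
  have e3 := charpoly_minusMap_mu p F σ
  have hne : (X - 1 : (ZMod p)[X]) ≠ 0 := by
    have := X_sub_C_ne_zero (1 : ZMod p)
    rwa [map_one] at this
  apply mul_right_cancel₀ hne
  rw [e1, e0, e3, ← e2]
  ring

/-- **ASM: CHAR-EULER-BIG from H2-CP, SHA, CL and P1-CHAR.** -/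
theorem charEulerBig_of (hH2 : ∀ S : Finset Nat.Primes, Fermat.Agent.S56.Euler.H2CPSpec p S)
    (hSha : Sha2IndSpec p) (hCl : ClSpec p) (hP1 : P1CharSpec p) :
    Fermat.Agent.S56.Euler.CharEulerBigSpec p := by
  intro hp2 S₀ hpS₀ U hUn hU hχ
  obtain ⟨S₁, hS₁, hsha⟩ := hSha S₀ hpS₀ U hU hχ
  have hU₁ : U ∈ (globalLevels S₁).levels := Fermat.Agent.S56.Euler.mem_levels_mono hS₁ hU
  obtain ⟨S, hS, hcl⟩ := hCl hp2 S₁ (hS₁ hpS₀) U hU₁ hχ
  refine ⟨S, hS₁.trans hS, fun σ hσ => ?_⟩
  obtain ⟨F, hF, rfl⟩ := hU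
  haveI : FiniteDimensional ℚ F := hF.1
  haveI : NumberField F := ⟨⟩
  haveI : IsGalois ℚ F := (InfiniteGalois.normal_iff_isGalois F).1 hUn
  have hFS : F.IsUnramifiedOutside S := hF.mono (hS₁.trans hS)
  exact charpolyId_of_terms hp2 S (hS (hS₁ hpS₀)) F hFS hχ (hH2 S) (hsha S hS) σ
    (fun hfin => hP1 hp2 S (hS (hS₁ hpS₀)) F hFS hχ hcl σ hσ hfin)

/-- **ASM with SHA discharged** (Theorem D for all `T` is an S55 by-product). -/
theorem charEulerBig_of' (hH2 : ∀ S : Finset Nat.Primes, Fermat.Agent.S56.Euler.H2CPSpec p S)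
    (hD : ∀ T : Finset Nat.Primes, TheoremDSpec p T) (hCl : ClSpec p) (hP1 : P1CharSpec p) :
    Fermat.Agent.S56.Euler.CharEulerBigSpec p :=
  charEulerBig_of hH2 (sha2Ind_of hD) hCl hP1

end Asm

end Fermat.Agent.S56.H419

end
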