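import Fermat.Agent.S56.H419.H0Mu
import Fermat.Agent.S56.Euler.H896.Herb

/-!
# S56 / W-BASE / leaves EUL-H0 + EUL-HERB combined (helper419)

`F/ℚ` a finite Galois level, `U = G_F`, `S` a finite set of rational primes, `σ ∈ G_ℚ`,
`X = Ind_U μ_p = indRep U (mu p)`, `X′ = tdual p X`.  For ANY model `(V, π, g)` of
`E_S(F)/p` (the `S`-units of `F` modulo `p`-th powers, with the endomorphism induced by `σ|_F`):

  `charpoly(g) · charpoly(R_σ | H⁰(G_ℚ, X′))
      = charpoly(R_σ | H⁰(G_ℚ, X)) · charpoly(R_σ | X^{c=-1}) · ∏_{q ∈ S} charpoly(R_σ | H⁰(G_q, X′))`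

(`herb_H0`).  This is `Euler.H896.herbCharpoly` (helper896) for `K = ℚ`, `L = F`,
`T = primesT S`, with every factor rewritten as the characteristic polynomial of a right
translation on an `H⁰` of the PT layer.  In `G₀(𝔽_p[C])`, `C = ⟨σ|_F⟩` of order prime to `p`:
`[E_S(F)/p] + [H⁰(X′)] = [H⁰(X)] + [X^{c=-1}] + Σ_q [H⁰(G_q, X′)]`.
-/

set_option autoImplicit false
set_option linter.style.haveILetI false
set_option linter.unusedSectionVars false

noncomputable section

open scoped Pointwise NumberField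

namespace Fermat.Agent.S56.H419

open Fermat.Agent.S55.PT Fermat.Agent.S55.G Fermat.Agent.S55.Bridge Fermat.Agent.S56.H614
  Fermat.Agent.S56.Euler.H896 ExtCitation MulAction NumberField Polynomial groupCohomology

section CC

variable (p : ℕ) [Fact p.Prime]

/-- Complex conjugation inverts roots of unity. -/
theorem complexConjugation_root {t : AlgebraicClosure ℚ} {m : ℕ} (hm : m ≠ 0)
    (ht : t ^ m = 1) : complexConjugation t = t⁻¹ := by
  apply complexEmbedding.toRingHom.injective
  show complexEmbedding (complexConjugation t) = complexEmbedding t⁻¹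
  rw [complexEmbedding_complexConjugation, map_inv₀]
  have h1 : (complexEmbedding t) ^ m = 1 := by rw [← map_pow, ht, map_one]
  have h2 : ‖complexEmbedding t‖ = 1 := Complex.norm_eq_one_of_pow_eq_one h1 hm
  exact (Complex.inv_eq_conj h2).symm

/-- The cyclotomic character of complex conjugation is `-1`. -/
theorem cycloChar_complexConjugation : cycloChar p complexConjugation = -1 := by
  have hp : p.Prime := Fact.out
  haveI : NeZero p := ⟨hp.ne_zero⟩
  haveI : Fact (1 < p) := ⟨hp.one_lt⟩
  have hval : ((-1 : ZMod p)).val = p - 1 := by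
    obtain ⟨k, hk⟩ : ∃ k, p = k + 1 := ⟨p - 1, (Nat.succ_pred_eq_of_pos hp.pos).symm⟩
    subst hk
    rw [ZMod.val_neg_one]
    simp
  have h := modularCyclotomicCharacter.unique (AlgebraicClosure ℚ) (card_rootsOfUnity_eq_self p)
    (complexConjugation : AlgebraicClosure ℚ ≃+* AlgebraicClosure ℚ) (c := -1)
    (fun t ht => by
      have htp : ((t : (AlgebraicClosure ℚ)ˣ) : AlgebraicClosure ℚ) ^ p = 1 := by
        have := (mem_rootsOfUnity p t).1 ht
        rw [← Units.val_pow_eq_pow_val, this, Units.val_one]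
      have h0 : ((t : (AlgebraicClosure ℚ)ˣ) : AlgebraicClosure ℚ) ≠ 0 := t.ne_zero
      have h1 : ((t : (AlgebraicClosure ℚ)ˣ) : AlgebraicClosure ℚ) ^ (p - 1) *
          ((t : (AlgebraicClosure ℚ)ˣ) : AlgebraicClosure ℚ) = 1 := by
        rw [← pow_succ, Nat.sub_add_cancel hp.pos, htp]
      rw [hval]
      show complexConjugation ((t : (AlgebraicClosure ℚ)ˣ) : AlgebraicClosure ℚ) = _
      rw [complexConjugation_root hp.ne_zero htp]
      exact (eq_inv_of_mul_eq_one_left h1).symm)
  apply Units.ext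
  rw [Units.val_neg, Units.val_one]
  exact h.symm

theorem mu_ρ_complexConjugation (m : mu p) : (mu p).ρ complexConjugation m = -m := by
  rw [mu_ρ_apply, cycloChar_complexConjugation, Units.val_neg, Units.val_one, neg_smul, one_smul]

end CC

section Herb

variable (p : ℕ) [Fact p.Prime] (F : IntermediateField ℚ (AlgebraicClosure ℚ)) [NumberField F]
  [IsGalois ℚ F] [FiniteDimensional ℚ F] (S : Finset Nat.Primes) (σ : GQ)

/-- **EUL-HERB ∘ EUL-H0.** -/
theorem herb_H0
    {V : Type*} [AddCommGroup V] [Module (ZMod p) V] [Module.Finite (ZMod p) V]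
    (g : V →ₗ[ZMod p] V) (π : ↥(sUnits ℚ F (primesT S)) →+ V) (hπ : Function.Surjective π)
    (hπk : ∀ a, π a = 0 → ∃ b, a = p • b)
    (hg : ∀ a b : ↥(sUnits ℚ F (primesT S)),
      (b : Additive Fˣ) = unitsHom ℚ F (resF F σ) a → π b = g (π a))
    {W : Type*} [AddCommGroup W] [Module (ZMod p) W] [Module.Finite (ZMod p) W]
    (gμ : W →ₗ[ZMod p] W) (ι : W →+ Additive Fˣ) (hι : Function.Injective ι)
    (hιr : ∀ a, a ∈ ι.range ↔ p • a = 0)
    (hgμ : ∀ w, ι (gμ w) = unitsHom ℚ F (resF F σ) (ι w)) :
    g.charpoly *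
        (pushH0 (A := (indRep F.fixingSubgroup (mu p)).dualTwist (cycloChar p))
          (B := (indRep F.fixingSubgroup (mu p)).dualTwist (cycloChar p))
          (indRDual F.fixingSubgroup (mu p) σ)
          (indRDual_equivariant F.fixingSubgroup (mu p) (cycloChar p) σ)).charpoly =
      (pushH0 (A := indRep F.fixingSubgroup (mu p)) (B := indRep F.fixingSubgroup (mu p))
          (indR F.fixingSubgroup (mu p) σ)
          (indR_equivariant F.fixingSubgroup (mu p) σ)).charpoly *
        (minusR complexConjugation F.fixingSubgroup (mu p) σ).charpoly *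
        ∏ q ∈ S, (pushH0
          (A := Rep.res (rl q) ((indRep F.fixingSubgroup (mu p)).dualTwist (cycloChar p)))
          (B := Rep.res (rl q) ((indRep F.fixingSubgroup (mu p)).dualTwist (cycloChar p)))
          (indRDual F.fixingSubgroup (mu p) σ)
          (indRDual_res_equivariant (rl q) F.fixingSubgroup (mu p) (cycloChar p) σ)).charpoly := by
  haveI : Module.Finite (ZMod p) (mu p) := inferInstanceAs (Module.Finite (ZMod p) (ZMod p))
  have h1 : Module.finrank (ZMod p) (mu p) = 1 := Module.finrank_self (ZMod p)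
  rw [charpoly_H0_glob_tdual F.fixingSubgroup (mu p) (cycloChar p) (mu_ρ_apply p) h1 σ,
    ← charpoly_muModel p F gμ ι hι hιr σ hgμ,
    charpoly_minus F (mu p) (mu_ρ_complexConjugation p) h1 σ,
    charpoly_H0_loc_tdual F (mu p) (cycloChar p) (mu_ρ_apply p) h1 S σ]
  exact herbCharpoly ℚ F (primesT S) (resF F σ) p g π hπ hπk hg gμ ι hι hιr hgμ

end Herb

end Fermat.Agent.S56.H419

end
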