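import Fermat.Agent.S56.H419.H0PrimesT

/-!
# S56 / W-BASE / leaf EUL-H0, part 10 (helper419): the `H⁰` package in characteristic
polynomial form

`F/ℚ` a finite Galois level inside `ℚ̄`, `U = G_F = F.fixingSubgroup`, `σ ∈ G_ℚ`, `τ = σ|_F`,
`M` a one-dimensional representation of `G_ℚ` on which `G_ℚ` acts through a character `χ`
(`M = μ_p = mu p`, `χ = cycloChar p`), `X = Ind_U M = indRep U M`, `X′ = X.dualTwist χ`.
All characteristic polynomials are those of the right translation `R_σ = indR U M σ` (resp. its
contragredient `indRDual U M σ` on `X′`):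

* `charpoly_H0_loc_tdual`  : `∏_{q ∈ S} charpoly(R_σ | H⁰(G_q, X′)) =
                               permCharpoly k (primePerm ℚ F (primesT S) τ)`;
* `charpoly_H0_loc_triv`   : the same for `Ind_U M`, `M` with trivial action;
* `charpoly_H0_glob_tdual` : `charpoly(R_σ | H⁰(G_ℚ, X′)) = X - 1`;
* `charpoly_minus`         : `charpoly(R_σ | X^{c=-1}) = permCharpoly k (τ⁻¹ | InfinitePlace F)`
                             (`c` = complex conjugation, acting by `-1` on `M`);
* `charpoly_H0_glob_char`  : `charpoly(R_σ | H⁰(G_ℚ, X)) = X - χ(σ)` if `χ|_U = 1`, `= 1` else.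

The right-hand sides are exactly the factors of `H614.sUnits_charpoly` /
`Euler.H896.herbCharpoly` for `K = ℚ`, `L = F`, `T = primesT S`.
-/

set_option autoImplicit false
set_option linter.style.haveILetI false
set_option linter.unusedSectionVars false

noncomputable section

open scoped Pointwise NumberField

namespace Fermat.Agent.S56.H419

open Fermat.Agent.S55.PT Fermat.Agent.S55.G Fermat.Agent.S56.H614 ExtCitation MulAction
  NumberField Polynomial IsDedekindDomain groupCohomology

/-! ### scalar endomorphisms -/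

section Scalar

variable {R : Type*} [Field R] {V : Type*} [AddCommGroup V] [Module R V] [Module.Finite R V]

theorem charpoly_smul_one (c : R) :
    (c • (1 : Module.End R V)).charpoly = (X - C c) ^ Module.finrank R V := by
  have h := LinearMap.charpoly_sub_smul (0 : Module.End R V) (-c)
  rw [zero_sub, neg_smul, neg_neg, LinearMap.charpoly_zero] at h
  rw [h, pow_comp, X_comp, map_neg, sub_eq_add_neg]

theorem charpoly_of_forall_smul (f : V →ₗ[R] V) (c : R) (hf : ∀ v, f v = c • v) :
    f.charpoly = (X - C c) ^ Module.finrank R V := by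
  have : f = c • (1 : Module.End R V) := by
    apply LinearMap.ext
    intro v
    rw [hf]
    rfl
  rw [this, charpoly_smul_one]

end Scalar

/-! ### the global Tate dual -/

section GlobalDual

variable {k : Type} [Field k] {G : Type} [Group G] (U : Subgroup G) [U.Normal] [U.FiniteIndex]
  (M : Rep.{0, 0, 0} k G) (χ : G →* kˣ)

/-- `H⁰(G, (Ind_U M)′) ≃ H⁰(G, Ind_U(M′))`. -/
def tdualToIndGlobal :
    ↥(LevelSys.H0 ((indRep U M).dualTwist χ)) ≃ₗ[k]
      ↥(LevelSys.H0 (indRep U (M.dualTwist χ))) where
  toFun a := ⟨(dualIndEquiv U M).symm a.1, by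
    intro g
    apply (dualIndEquiv U M).injective
    have h1 := dualIndEquiv_equivariant U M χ g ((dualIndEquiv U M).symm a.1)
    have h2 : ((indRep U M).dualTwist χ).ρ g a.1 = a.1 := a.2 g
    show dualIndEquiv U M ((indRep U (M.dualTwist χ)).ρ g ((dualIndEquiv U M).symm a.1)) = _
    rw [LinearEquiv.coe_coe] at h1
    rw [h1, LinearEquiv.apply_symm_apply, h2]⟩
  map_add' a b := by
    apply Subtype.ext
    exact map_add (dualIndEquiv U M).symm a.1 b.1
  map_smul' c a := by
    apply Subtype.ext
    exact map_smul (dualIndEquiv U M).symm c a.1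
  invFun b := ⟨dualIndEquiv U M b.1, by
    intro g
    have h1 := dualIndEquiv_equivariant U M χ g b.1
    have h2 : (indRep U (M.dualTwist χ)).ρ g b.1 = b.1 := b.2 g
    show ((indRep U M).dualTwist χ).ρ g (dualIndEquiv U M b.1) = _
    rw [LinearEquiv.coe_coe] at h1
    rw [← h1, h2]⟩
  left_inv a := by
    apply Subtype.ext
    exact (dualIndEquiv U M).apply_symm_apply a.1
  right_inv b := by
    apply Subtype.ext
    exact (dualIndEquiv U M).symm_apply_apply b.1

@[simp] theorem coe_tdualToIndGlobal (a : ↥(LevelSys.H0 ((indRep U M).dualTwist χ))) :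
    ((tdualToIndGlobal U M χ a).1 : (G ⧸ U) →₀ Module.Dual k M) =
      (dualIndEquiv U M).symm a.1 := rfl

theorem tdualToIndGlobal_indR (σ : G) (a : ↥(LevelSys.H0 ((indRep U M).dualTwist χ))) :
    tdualToIndGlobal U M χ
      (pushH0 (A := (indRep U M).dualTwist χ) (B := (indRep U M).dualTwist χ) (indRDual U M σ)
        (indRDual_equivariant U M χ σ) a) =
      pushH0 (A := indRep U (M.dualTwist χ)) (B := indRep U (M.dualTwist χ))
        (indR U (M.dualTwist χ) σ) (indR_equivariant U (M.dualTwist χ) σ)
        (tdualToIndGlobal U M χ a) := by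
  apply Subtype.ext
  apply (dualIndEquiv U M).injective
  rw [coe_tdualToIndGlobal, LinearEquiv.apply_symm_apply, coe_pushH0, coe_pushH0,
    dualIndEquiv_indR, coe_tdualToIndGlobal, LinearEquiv.apply_symm_apply]
  rfl

variable [Module.Finite k M]

/-- **Global `H⁰` of the Tate dual.** For `M = k(χ)` of dimension one, the right translation
acts trivially on the line `H⁰(G, (Ind_U M)′)`. -/
theorem charpoly_H0_glob_tdual (hM : ∀ (g : G) (m : M), M.ρ g m = (χ g : k) • m)
    (hM1 : Module.finrank k M = 1) (σ : G) :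
    (pushH0 (A := (indRep U M).dualTwist χ) (B := (indRep U M).dualTwist χ) (indRDual U M σ)
      (indRDual_equivariant U M χ σ)).charpoly = X - 1 := by
  have hD : Module.finrank k (Module.Dual k M) = 1 := by
    rw [Subspace.dual_finrank_eq, hM1]
  have htriv : ∀ (g : G) (f : Module.Dual k M), (M.dualTwist χ).ρ g f = f :=
    fun g f => dualTwist_trivial_of_char M χ hM g f
  have h1 := charpoly_eq_of_intertwine (tdualToIndGlobal U M χ) _ _
    (tdualToIndGlobal_indR U M χ σ)
  haveI : Module.Finite k (M.dualTwist χ) :=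
    inferInstanceAs (Module.Finite k (Module.Dual k M))
  rw [h1, charpoly_indH0 U (M.dualTwist χ) σ]
  have htop : invU U (M.dualTwist χ) = ⊤ := by
    rw [eq_top_iff]
    intro f _ u _
    exact htriv u f
  have hfr : Module.finrank k ↥(invU U (M.dualTwist χ)) = 1 := by
    rw [htop, finrank_top]
    exact hD
  have := charpoly_of_forall_smul (invUAct U (M.dualTwist χ) σ) 1 (fun v => by
    apply Subtype.ext
    rw [coe_invUAct, htriv, one_smul])
  rw [this, hfr, pow_one, map_one]

/-- **Global `H⁰` of `Ind_U k(χ)`.** -/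
theorem charpoly_H0_glob_char (hM : ∀ (g : G) (m : M), M.ρ g m = (χ g : k) • m) (σ : G) :
    (pushH0 (A := indRep U M) (B := indRep U M) (indR U M σ)
      (indR_equivariant U M σ)).charpoly =
      (X - C ((χ σ : k))) ^ Module.finrank k ↥(invU U M) := by
  rw [charpoly_indH0 U M σ]
  exact charpoly_of_forall_smul (invUAct U M σ) (χ σ : k) (fun v => by
    apply Subtype.ext
    rw [coe_invUAct, hM]
    rfl)

/-- If `χ` is trivial on `U` then `M^U = M`. -/
theorem finrank_invU_of_trivial (hM : ∀ (g : G) (m : M), M.ρ g m = (χ g : k) • m)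
    (hχ : ∀ u ∈ U, χ u = 1) : Module.finrank k ↥(invU U M) = Module.finrank k M := by
  have htop : invU U M = ⊤ := by
    rw [eq_top_iff]
    intro m _ u hu
    rw [hM, hχ u hu, Units.val_one, one_smul]
  rw [htop, finrank_top]

/-- If `χ` is nontrivial on `U` then `M^U = 0`. -/
theorem finrank_invU_of_nontrivial (hM : ∀ (g : G) (m : M), M.ρ g m = (χ g : k) • m)
    (hχ : ∃ u ∈ U, χ u ≠ 1) : Module.finrank k ↥(invU U M) = 0 := by
  obtain ⟨u, hu, hne⟩ := hχ
  have hbot : invU U M = ⊥ := by
    rw [eq_bot_iff]
    intro m hm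
    have h1 : M.ρ u m = m := hm u hu
    rw [hM] at h1
    have h2 : ((χ u : k) - 1) • m = 0 := by rw [sub_smul, h1, one_smul, sub_self]
    rcases smul_eq_zero.1 h2 with h | h
    · exfalso
      apply hne
      apply Units.ext
      rw [Units.val_one]
      exact sub_eq_zero.1 h
    · exact (Submodule.mem_bot k).2 h
  rw [hbot, finrank_bot]

end GlobalDual

/-! ### the arithmetic package -/

section Arithmetic

variable (F : IntermediateField ℚ (AlgebraicClosure ℚ)) [NumberField F] [IsGalois ℚ F]
  [FiniteDimensional ℚ F] {k : Type} [Field k] (M : Rep.{0, 0, 0} k GQ) [Module.Finite k M]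

/-- **Local `H⁰` of the Tate dual, all `q ∈ S`.** -/
theorem charpoly_H0_loc_tdual (χ : GQ →* kˣ)
    (hM : ∀ (g : GQ) (m : M), M.ρ g m = (χ g : k) • m) (hM1 : Module.finrank k M = 1)
    (S : Finset Nat.Primes) (σ : GQ) :
    ∏ q ∈ S, (pushH0 (A := Rep.res (rl q) ((indRep F.fixingSubgroup M).dualTwist χ))
        (B := Rep.res (rl q) ((indRep F.fixingSubgroup M).dualTwist χ))
        (indRDual F.fixingSubgroup M σ)
        (indRDual_res_equivariant (rl q) F.fixingSubgroup M χ σ)).charpoly =
      permCharpoly k (primePerm ℚ F (primesT S) (resF F σ)) := by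
  rw [← prod_permCharpoly_dcPerm_Dq F k S σ]
  exact Finset.prod_congr rfl (fun q _ =>
    charpoly_resTdualIndH0 F.fixingSubgroup M (rl q) χ hM hM1 σ)

/-- **Local `H⁰`, trivial coefficients, all `q ∈ S`.** -/
theorem charpoly_H0_loc_triv (hM : ∀ (g : GQ) (m : M), M.ρ g m = m)
    (hM1 : Module.finrank k M = 1) (S : Finset Nat.Primes) (σ : GQ) :
    ∏ q ∈ S, (pushH0 (A := Rep.res (rl q) (indRep F.fixingSubgroup M))
        (B := Rep.res (rl q) (indRep F.fixingSubgroup M)) (indR F.fixingSubgroup M σ)
        (indR_res_equivariant (rl q) F.fixingSubgroup M σ)).charpoly =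
      permCharpoly k (primePerm ℚ F (primesT S) (resF F σ)) := by
  rw [← prod_permCharpoly_dcPerm_Dq F k S σ]
  exact Finset.prod_congr rfl (fun q _ =>
    charpoly_resIndH0 F.fixingSubgroup M (rl q) (fun g m => hM (rl q g) m) hM1 σ)

/-- **Archimedean term.** -/
theorem charpoly_minus (hc : ∀ m : M, M.ρ complexConjugation m = -m)
    (hM1 : Module.finrank k M = 1) (σ : GQ) :
    (minusR complexConjugation F.fixingSubgroup M σ).charpoly =
      permCharpoly k (fun w : InfinitePlace F => (resF F σ)⁻¹ • w) := by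
  rw [charpoly_minusR F.fixingSubgroup M complexConjugation hc hM1 σ]
  exact permCharpoly_dcPerm_Dinf F k σ

end Arithmetic

end Fermat.Agent.S56.H419

end
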