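import Fermat.Agent.S56.H419.CharEulerAsm
import Fermat.Agent.S56.Euler.Big.AsmGlue
import Fermat.Agent.S56.Euler.H74.ClKum

/-!
# S56 / W-BASE / BASE-BIG: the leaves CE-H2 and CL of `Euler/Big/AsmSpec.lean` (helper419)

* `ceH2_of  : (∀ S, Euler.H2CPSpec p S) → Euler.CEH2Spec p`   (H2-CP + the `H⁰` package);
* `clSpec   : Euler.CLSpec p`                                 (helper74's `exists_noPTorsH1E`);
* `clSpec'  : ClSpec p`                                       (the same, `H419` shape);
* `charEulerBig_of_h1 : (∀ T ∋ p, TheoremDSpec p T) → (∀ S, Euler.H2CPSpec p S) →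
      Euler.CEH1Spec p → Euler.CharEulerBigSpec p`           (only CE-H1 and S55 inputs left).

Nothing unproved in this file.
-/

set_option autoImplicit false
set_option linter.style.haveILetI false
set_option linter.unusedSectionVars false

noncomputable section

open scoped Pointwise NumberField

namespace Fermat.Agent.S56.H419

open Fermat.Agent.S55.PT Fermat.Agent.S55.G Fermat.Agent.S56.H614 ExtCitation MulAction
  NumberField Polynomial groupCohomology

variable {p : ℕ} [Fact p.Prime]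

/-- **CE-H2** from H2-CP. -/
theorem ceH2_of (hH2 : ∀ S : Finset Nat.Primes, Fermat.Agent.S56.Euler.H2CPSpec p S) :
    Fermat.Agent.S56.Euler.CEH2Spec p := by
  intro hp2 S hpS F _ _ _ hF hχ hsha σ hfin
  haveI : Module.Finite (ZMod p) (mu p) := inferInstanceAs (Module.Finite (ZMod p) (ZMod p))
  haveI : Finite (GQ ⧸ F.fixingSubgroup) := Subgroup.finite_quotient_of_finiteIndex
  haveI : Module.Finite (ZMod p) (indRep F.fixingSubgroup (mu p)) :=
    inferInstanceAs (Module.Finite (ZMod p) ((GQ ⧸ F.fixingSubgroup) →₀ (mu p)))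
  exact charpoly_H2_of_h2cp p F S σ hp2 hpS (hH2 S) hF hχ hsha

/-- **CL** (helper74), in the shape of `Euler/Big/AsmSpec.lean`. -/
theorem clSpec : Fermat.Agent.S56.Euler.CLSpec p := by
  intro S₁ _ U _ hU
  obtain ⟨S, hS, h⟩ := Fermat.Agent.S56.Euler.H74.exists_noPTorsH1E p S₁ S₁ subset_rfl U hU
  exact ⟨S, hS, h S subset_rfl⟩

/-- **CL** (helper74), in the shape of `H419/CharEulerAsm.lean`. -/
theorem clSpec' : ClSpec p := by
  intro _ S₁ _ U _ hU _
  obtain ⟨S, hS, h⟩ := Fermat.Agent.S56.Euler.H74.exists_noPTorsH1E p S₁ S₁ subset_rfl U hU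
  exact ⟨S, hS, h S subset_rfl⟩

/-- **CHAR-EULER-BIG from CE-H1, H2-CP and Theorem D.** -/
theorem charEulerBig_of_h1
    (hD : ∀ T : Finset Nat.Primes, pPrime p ∈ T → TheoremDSpec p T)
    (hH2 : ∀ S : Finset Nat.Primes, Fermat.Agent.S56.Euler.H2CPSpec p S)
    (h1 : Fermat.Agent.S56.Euler.CEH1Spec p) : Fermat.Agent.S56.Euler.CharEulerBigSpec p :=
  Fermat.Agent.S56.Euler.charEulerBig_of hD h1 (ceH2_of hH2) clSpec

end Fermat.Agent.S56.H419

end
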