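import Mathlib

/-!
# S56 / W-BASE / leaf ADD, part 1 (helper419): abstract linear algebra

Alternating sum of dimensions along a nine-term exact sequence of finite-dimensional vector spaces
`0 → V₁ → V₂ → … → V₉ → 0`.
-/

set_option autoImplicit false

namespace Fermat.Agent.S56.H419

open Module

section NineTerm

variable {k : Type*} [Field k]

/-- Rank–nullity in the form used along an exact sequence: if `range f = ker g` then
`dim V = dim (range f) + dim (range g)`. -/
theorem finrank_eq_of_exact {U V W : Type*} [AddCommGroup U] [Module k U]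
    [AddCommGroup V] [Module k V] [AddCommGroup W] [Module k W] [FiniteDimensional k V]
    (f : U →ₗ[k] V) (g : V →ₗ[k] W) (h : LinearMap.range f = LinearMap.ker g) :
    finrank k V = finrank k (LinearMap.range f) + finrank k (LinearMap.range g) := by
  rw [h, add_comm]
  exact (LinearMap.finrank_range_add_finrank_ker g).symm

/-- The alternating sum of the dimensions of a nine-term exact sequence vanishes, in the form
`dim V₂ + dim V₅ + dim V₈ … ` used for Euler characteristics: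
`(d₁ - d₄ + d₇) + (d₃ - d₆ + d₉) = d₂ - d₅ + d₈`. -/
theorem nineTerm_alternating
    {V₁ V₂ V₃ V₄ V₅ V₆ V₇ V₈ V₉ : Type*}
    [AddCommGroup V₁] [Module k V₁] [AddCommGroup V₂] [Module k V₂]
    [AddCommGroup V₃] [Module k V₃] [AddCommGroup V₄] [Module k V₄]
    [AddCommGroup V₅] [Module k V₅] [AddCommGroup V₆] [Module k V₆]
    [AddCommGroup V₇] [Module k V₇] [AddCommGroup V₈] [Module k V₈]
    [AddCommGroup V₉] [Module k V₉]
    [FiniteDimensional k V₁] [FiniteDimensional k V₂] [FiniteDimensional k V₃]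
    [FiniteDimensional k V₄] [FiniteDimensional k V₅] [FiniteDimensional k V₆]
    [FiniteDimensional k V₇] [FiniteDimensional k V₈] [FiniteDimensional k V₉]
    (f₁ : V₁ →ₗ[k] V₂) (f₂ : V₂ →ₗ[k] V₃) (f₃ : V₃ →ₗ[k] V₄) (f₄ : V₄ →ₗ[k] V₅)
    (f₅ : V₅ →ₗ[k] V₆) (f₆ : V₆ →ₗ[k] V₇) (f₇ : V₇ →ₗ[k] V₈) (f₈ : V₈ →ₗ[k] V₉)
    (h₁ : Function.Injective f₁)
    (h₁₂ : LinearMap.range f₁ = LinearMap.ker f₂)
    (h₂₃ : LinearMap.range f₂ = LinearMap.ker f₃)
    (h₃₄ : LinearMap.range f₃ = LinearMap.ker f₄)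
    (h₄₅ : LinearMap.range f₄ = LinearMap.ker f₅)
    (h₅₆ : LinearMap.range f₅ = LinearMap.ker f₆)
    (h₆₇ : LinearMap.range f₆ = LinearMap.ker f₇)
    (h₇₈ : LinearMap.range f₇ = LinearMap.ker f₈)
    (h₈ : Function.Surjective f₈) :
    ((finrank k V₁ : ℤ) - finrank k V₄ + finrank k V₇) +
        ((finrank k V₃ : ℤ) - finrank k V₆ + finrank k V₉) =
      (finrank k V₂ : ℤ) - finrank k V₅ + finrank k V₈ := by
  have e₁ : finrank k V₁ = finrank k (LinearMap.range f₁) :=
    (LinearMap.finrank_range_of_inj h₁).symm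
  have e₂ := finrank_eq_of_exact f₁ f₂ h₁₂
  have e₃ := finrank_eq_of_exact f₂ f₃ h₂₃
  have e₄ := finrank_eq_of_exact f₃ f₄ h₃₄
  have e₅ := finrank_eq_of_exact f₄ f₅ h₄₅
  have e₆ := finrank_eq_of_exact f₅ f₆ h₅₆
  have e₇ := finrank_eq_of_exact f₆ f₇ h₆₇
  have e₈ := finrank_eq_of_exact f₇ f₈ h₇₈
  have e₉ : finrank k V₉ = finrank k (LinearMap.range f₈) := by
    rw [LinearMap.range_eq_top.2 h₈, finrank_top]
  omega

end NineTerm

end Fermat.Agent.S56.H419
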