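import Fermat.Agent.S55.PT.SpecF
import Fermat.Agent.S55.PT.Spec
import Fermat.Agent.S56.H419.EulerAddCore

/-!
# S56 / W-BASE / leaf ADD (helper419): additivity of the Euler characteristic

Vocabulary of S55 route C′ (`Fermat/Agent/S55/PT`): level-constant cohomology `LevelSys.H0/H1/H2`,
short exact sequences `SES A B C`, the framework leaves `Les0Spec`, `Les1Spec`, `LesMidSpec`.

* `eulerChar L N = h⁰ − h¹ + h²` (as an integer, `finrank`).
* `eulerChar_add` : for a short exact sequence `0 → A → B → C → 0` of uniformly smooth modules with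
  finite-dimensional cohomology and `H²(B) → H²(C)` onto, `χ(B) = χ(A) + χ(C)`.
* `EulerAddSpec p S`, `eulerAdd_of` : the global form for `G_ℚ`, `globalLevels S`, from
  `FinGlobSpec` (A1), `H2FinGlobSpec`, `Surj2GlobSpec` (A3) and the framework leaves.
-/

set_option autoImplicit false

noncomputable section

namespace Fermat.Agent.S56.H419

open Fermat.Agent.S55.PT groupCohomology Module

section General

variable {k : Type} [Field k] {G : Type} [Group G]

/-- The Euler characteristic `h⁰ − h¹ + h²` of level-constant cohomology. -/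
def eulerChar (L : LevelSys G) (N : Rep.{0, 0, 0} k G) : ℤ :=
  (finrank k ↥(LevelSys.H0 N) : ℤ) - finrank k (L.H1 N) + finrank k (L.H2 N)

/-- A sub-representation of a uniformly smooth representation is uniformly smooth. -/
theorem SES.isUSmooth_left {A B C : Rep.{0, 0, 0} k G} (E : SES A B C) (L : LevelSys G)
    (hB : L.IsUSmooth B) : L.IsUSmooth A := by
  obtain ⟨U, hU, h⟩ := hB
  refine ⟨U, hU, fun s hs a => E.inj ?_⟩
  rw [E.hi s a, h s hs]

/-- A quotient of a uniformly smooth representation is uniformly smooth. -/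
theorem SES.isUSmooth_right {A B C : Rep.{0, 0, 0} k G} (E : SES A B C) (L : LevelSys G)
    (hB : L.IsUSmooth B) : L.IsUSmooth C := by
  obtain ⟨U, hU, h⟩ := hB
  refine ⟨U, hU, fun s hs c => ?_⟩
  obtain ⟨b, rfl⟩ := E.surj c
  rw [← E.hπ s b, h s hs]

/-- **ADD, general form.**  Additivity of the Euler characteristic along a short exact sequence
of uniformly smooth representations, assuming finite-dimensionality of all cohomology groups
and surjectivity of `H²(B) → H²(C)`. -/
theorem eulerChar_add (hLes0 : Les0Spec) (hLes1 : Les1Spec) (hMid : LesMidSpec)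
    (L : LevelSys G) (hN : L.NormalCofinal) {A B C : Rep.{0, 0, 0} k G} (E : SES A B C)
    (hB : L.IsUSmooth B) [FiniteDimensional k B]
    [FiniteDimensional k (L.H1 A)] [FiniteDimensional k (L.H1 B)] [FiniteDimensional k (L.H1 C)]
    [FiniteDimensional k (L.H2 A)] [FiniteDimensional k (L.H2 B)] [FiniteDimensional k (L.H2 C)]
    (hsurj : Function.Surjective (pushH2 E.π E.hπ L)) :
    eulerChar L B = eulerChar L A + eulerChar L C := by
  have hA : L.IsUSmooth A := SES.isUSmooth_left E L hB
  have hC : L.IsUSmooth C := SES.isUSmooth_right E L hB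
  have : FiniteDimensional k A := FiniteDimensional.of_injective E.i E.inj
  have : FiniteDimensional k C := FiniteDimensional.of_surjective E.π E.surj
  obtain ⟨h0a, h0b⟩ := hLes0 k G L A B C E hB
  obtain ⟨h1a, h1b⟩ := hLes1 k G L A B C E hN hB hC
  obtain ⟨hm0, hm1, hm2, hm3⟩ := hMid k G L A B C E hN hA hB
  have key := nineTerm_alternating (k := k)
    (pushH0 E.i E.hi) (pushH0 E.π E.hπ) (E.del0 L hB) (pushH1 E.i E.hi L)
    (pushH1 E.π E.hπ L) (E.del1 L hN hB hC) (pushH2 E.i E.hi L) (pushH2 E.π E.hπ L)
    hm0 hm1 h0a.symm h0b hm2 h1a.symm h1b hm3 hsurj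
  unfold eulerChar
  linarith [key]

end General

section Global

variable (p : ℕ) [Fact p.Prime] (S : Finset Nat.Primes)

/-- `H²_S(N)` is finite-dimensional for finite-dimensional uniformly smooth `N`. -/
def H2FinGlobSpec : Prop :=
  ∀ N : Rep.{0, 0, 0} (ZMod p) GQ, FiniteDimensional (ZMod p) N → (globalLevels S).IsUSmooth N →
    FiniteDimensional (ZMod p) ((globalLevels S).H2 N)

/-- **ADD** (W-BASE, Tate's global Euler characteristic, step 1): the Euler characteristic
`h⁰ − h¹ + h²` of `G_{ℚ,S}` is additive on short exact sequences of finite-dimensional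
uniformly smooth `F_p`-representations. -/
def EulerAddSpec : Prop :=
  ∀ (A B C : Rep.{0, 0, 0} (ZMod p) GQ) (_E : SES A B C),
    FiniteDimensional (ZMod p) B → (globalLevels S).IsUSmooth B →
    eulerChar (globalLevels S) B = eulerChar (globalLevels S) A + eulerChar (globalLevels S) C

/-- **ADD from the inputs A1, A3 of route C′** (plus finiteness of `H²` and the framework
leaves D-F1, D-F2, D-F3, D-F7a). -/
theorem eulerAdd_of (hLes0 : Les0Spec) (hLes1 : Les1Spec) (hMid : LesMidSpec)
    (hGN : GlobalNormalCofinalSpec) (hA1 : FinGlobSpec p S) (hH2 : H2FinGlobSpec p S)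
    (hA3 : Surj2GlobSpec p S) : EulerAddSpec p S := by
  intro A B C E hfB hB
  have hA : (globalLevels S).IsUSmooth A := SES.isUSmooth_left E _ hB
  have hC : (globalLevels S).IsUSmooth C := SES.isUSmooth_right E _ hB
  have : FiniteDimensional (ZMod p) B := hfB
  have hfA : FiniteDimensional (ZMod p) A := FiniteDimensional.of_injective E.i E.inj
  have hfC : FiniteDimensional (ZMod p) C := FiniteDimensional.of_surjective E.π E.surj
  have := hA1 A hfA hA
  have := hA1 B hfB hB
  have := hA1 C hfC hC
  have := hH2 A hfA hA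
  have := hH2 B hfB hB
  have := hH2 C hfC hC
  exact eulerChar_add hLes0 hLes1 hMid (globalLevels S) (hGN S) E hB
    (hA3 B C E.π E.hπ hfB hB hC E.surj)

end Global

end Fermat.Agent.S56.H419

end
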