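import Fermat.Agent.S56.H419.H0Dual
import Fermat.Agent.S56.H614.Lattice

/-!
# S56 / W-BASE / leaf EUL-H0, part 6 (helper419): characteristic polynomials

`permCharpoly k σ` (helper614, `S56/H614/Lattice.lean`) is the characteristic polynomial of
`a ↦ a ∘ σ` on `X → k`.  Mathlib-only lemmas:

* `charpoly_eq_of_intertwine` : conjugate endomorphisms have the same characteristic polynomial;
* `permCharpoly_congr_equiv` : invariance under equivariant bijections;
* `charpoly_lmapDomain` : `charpoly (mapDomain π | X →₀ M) = permCharpoly k π⁻¹` for `dim M = 1`;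
* `permCharpoly_sum`, `permCharpoly_of_fibration` : multiplicativity on disjoint unions.

Then the characteristic polynomials of the right translations on the `H⁰`'s of `H0Ind`/`H0Dual`
(`charpoly_resIndH0`, `charpoly_resTdualIndH0`, `charpoly_minusR`, `charpoly_indH0`).
-/

set_option autoImplicit false
set_option linter.style.haveILetI false
set_option linter.unusedSectionVars false

noncomputable section

namespace Fermat.Agent.S56.H419

open Fermat.Agent.S55.PT Fermat.Agent.S56.H614 groupCohomology MulAction Polynomial Module

/-! ### general lemmas -/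

section General

variable {R : Type*} [CommRing R] {M₁ M₂ : Type*} [AddCommGroup M₁] [Module R M₁]
  [AddCommGroup M₂] [Module R M₂]

/-- Conjugate endomorphisms have the same characteristic polynomial. -/
theorem charpoly_eq_of_intertwine [Module.Finite R M₁] [Module.Free R M₁]
    [Module.Finite R M₂] [Module.Free R M₂]
    (e : M₁ ≃ₗ[R] M₂) (f : M₁ →ₗ[R] M₁) (g : M₂ →ₗ[R] M₂) (h : ∀ x, e (f x) = g (e x)) :
    f.charpoly = g.charpoly := by
  have hg : g = e.conj f := by
    apply LinearMap.ext
    intro y
    rw [LinearEquiv.conj_apply, LinearMap.comp_apply, LinearMap.comp_apply,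
      LinearEquiv.coe_coe, LinearEquiv.coe_coe, h, LinearEquiv.apply_symm_apply]
  rw [hg, LinearEquiv.charpoly_conj]

end General

section Perm

variable (k : Type*) [Field k] {X Y : Type*} [Finite X] [Finite Y]

/-- `permCharpoly` is invariant under equivariant bijections. -/
theorem permCharpoly_congr_equiv (e : X ≃ Y) (σ : X → X) (τ : Y → Y)
    (h : ∀ x, e (σ x) = τ (e x)) : permCharpoly k σ = permCharpoly k τ := by
  unfold permCharpoly
  symm
  refine charpoly_eq_of_intertwine (LinearEquiv.funCongrLeft k k e) _ _ ?_
  intro a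
  funext x
  simp only [LinearEquiv.funCongrLeft_apply, LinearMap.funLeft_apply, h]

/-- `permCharpoly` of equal maps. -/
theorem permCharpoly_congr {σ τ : X → X} (h : ∀ x, σ x = τ x) :
    permCharpoly k σ = permCharpoly k τ := by
  have : σ = τ := funext h
  rw [this]

/-- The characteristic polynomial of `mapDomain π` on `X →₀ k`. -/
theorem charpoly_lmapDomain_self (π : Equiv.Perm X) :
    (Finsupp.lmapDomain k k π).charpoly = permCharpoly k π.symm := by
  unfold permCharpoly
  refine charpoly_eq_of_intertwine (Finsupp.linearEquivFunOnFinite k k X) _ _ ?_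
  intro a
  funext x
  simp only [Finsupp.linearEquivFunOnFinite_apply, LinearMap.funLeft_apply,
    Finsupp.lmapDomain_apply]
  exact mapDomain_perm_apply π a x

/-- The characteristic polynomial of `mapDomain π` on `X →₀ M`, `dim M = 1`. -/
theorem charpoly_lmapDomain {M : Type*} [AddCommGroup M] [Module k M] [Module.Finite k M]
    (hM : Module.finrank k M = 1) (π : Equiv.Perm X) :
    (Finsupp.lmapDomain M k π).charpoly = permCharpoly k π.symm := by
  have e : M ≃ₗ[k] k := LinearEquiv.ofFinrankEq M k (by rw [hM, Module.finrank_self])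
  rw [← charpoly_lmapDomain_self]
  refine charpoly_eq_of_intertwine (Finsupp.mapRange.linearEquiv e) _ _ ?_
  intro a
  ext x
  simp only [Finsupp.mapRange.linearEquiv_apply, Finsupp.lmapDomain_apply,
    Finsupp.mapRange_apply]
  rw [mapDomain_perm_apply, mapDomain_perm_apply, Finsupp.mapRange_apply]

/-- `permCharpoly` on a disjoint union. -/
theorem permCharpoly_sum (σ : X → X) (τ : Y → Y) :
    permCharpoly k (Sum.map σ τ) = permCharpoly k σ * permCharpoly k τ := by
  unfold permCharpoly
  rw [← LinearMap.charpoly_prodMap]
  refine charpoly_eq_of_intertwine (LinearEquiv.sumArrowLequivProdArrow X Y k k) _ _ ?_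
  intro a
  rfl

/-- `permCharpoly` on the empty set. -/
theorem permCharpoly_of_isEmpty [IsEmpty X] (σ : X → X) : permCharpoly k σ = 1 := by
  unfold permCharpoly
  haveI : Subsingleton (X → k) := inferInstance
  have hm : (LinearMap.funLeft k k σ).charpoly.Monic := LinearMap.charpoly_monic _
  rw [← Polynomial.Monic.natDegree_eq_zero hm, LinearMap.charpoly_natDegree]
  exact Module.finrank_zero_of_subsingleton

end Perm

/-! ### characteristic polynomials of right translations on `H⁰` -/

section H0

variable {k : Type} [Field k] {G : Type} [Group G]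

variable (U : Subgroup G) [U.Normal] [U.FiniteIndex] (M : Rep.{0, 0, 0} k G) [Module.Finite k M]

/-- **Global `H⁰`.** The characteristic polynomial of the right translation on
`H⁰(G, Ind_U M)` is that of `σ` on `M^U`. -/
theorem charpoly_indH0 (σ : G) :
    (pushH0 (A := indRep U M) (B := indRep U M) (indR U M σ)
      (indR_equivariant U M σ)).charpoly = (invUAct U M σ).charpoly :=
  charpoly_eq_of_intertwine (indH0Equiv U M) _ _ (indH0Equiv_indR U M σ)

variable {G' : Type} [Group G'] (r : G' →* G)

/-- **Local `H⁰`, trivial coefficients of dimension 1.** -/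
theorem charpoly_resIndH0 (hM : ∀ (g : G') (m : M), M.ρ (r g) m = m)
    (hM1 : Module.finrank k M = 1) (σ : G) :
    (pushH0 (A := Rep.res r (indRep U M)) (B := Rep.res r (indRep U M)) (indR U M σ)
      (indR_res_equivariant r U M σ)).charpoly =
      permCharpoly k (dcPerm r.range U σ).symm := by
  rw [← charpoly_lmapDomain k hM1 (dcPerm r.range U σ)]
  exact charpoly_eq_of_intertwine (resIndH0Equiv r U M hM) _ _ (resIndH0Equiv_indR r U M hM σ)

/-- **Local `H⁰` of the Tate dual of `Ind_U k(χ)`.** -/
theorem charpoly_resTdualIndH0 (χ : G →* kˣ)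
    (hM : ∀ (g : G) (m : M), M.ρ g m = (χ g : k) • m)
    (hM1 : Module.finrank k M = 1) (σ : G) :
    (pushH0 (A := Rep.res r ((indRep U M).dualTwist χ))
      (B := Rep.res r ((indRep U M).dualTwist χ)) (indRDual U M σ)
      (indRDual_res_equivariant r U M χ σ)).charpoly =
      permCharpoly k (dcPerm r.range U σ).symm := by
  have hD : Module.finrank k (Module.Dual k M) = 1 := by
    rw [Subspace.dual_finrank_eq, hM1]
  rw [← charpoly_lmapDomain k hD (dcPerm r.range U σ)]
  exact charpoly_eq_of_intertwine (resTdualIndH0Equiv r U M χ hM) _ _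
    (resTdualIndH0Equiv_indR r U M χ hM σ)

/-- **Archimedean term.** -/
theorem charpoly_minusR (c : G) (hc : ∀ m : M, M.ρ c m = -m)
    (hM1 : Module.finrank k M = 1) (σ : G) :
    (minusR c U M σ).charpoly = permCharpoly k (dcPerm (Subgroup.zpowers c) U σ).symm := by
  rw [← charpoly_lmapDomain k hM1 (dcPerm (Subgroup.zpowers c) U σ)]
  exact charpoly_eq_of_intertwine (minusIndEquiv c U M hc) _ _ (minusIndEquiv_indR c U M hc σ)

end H0

end Fermat.Agent.S56.H419

end
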