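import Fermat.Agent.S56.H419.H0Charpoly

/-!
# S56 / W-BASE / leaf EUL-H0, part 7 (helper419): `permCharpoly` of a disjoint union of fibres

Mathlib-only (+ `permCharpoly` of `S56/H614/Lattice.lean`).
`A : I → X → Prop` pairwise disjoint predicates with finite fibres, `σ : X → X` preserving each
`A i`.  For a finite set `s` of indices,

  `permCharpoly k (σ | {x // ∃ i ∈ s, A i x}) = ∏ i ∈ s, permCharpoly k (σ | {x // A i x})`
(`permCharpoly_union`).
-/

set_option autoImplicit false
set_option linter.style.haveILetI false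
set_option linter.unusedSectionVars false

noncomputable section

namespace Fermat.Agent.S56.H419

open Fermat.Agent.S56.H614 Polynomial

section Fiber

variable (k : Type*) [Field k] {X : Type*} {I : Type*} (A : I → X → Prop)
  (σ : X → X) (hσ : ∀ i x, A i x → A i (σ x))

/-- The restriction of `σ` to the fibre `{x // A i x}`. -/
def fiberMap (i : I) : {x // A i x} → {x // A i x} := fun x => ⟨σ x.1, hσ i x.1 x.2⟩

/-- The restriction of `σ` to the union `{x // ∃ i ∈ s, A i x}`. -/
def unionMap (s : Finset I) : {x // ∃ i ∈ s, A i x} → {x // ∃ i ∈ s, A i x} :=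
  fun x => ⟨σ x.1, by obtain ⟨i, hi, h⟩ := x.2; exact ⟨i, hi, hσ i x.1 h⟩⟩

@[simp] theorem coe_fiberMap (i : I) (x : {x // A i x}) : (fiberMap A σ hσ i x).1 = σ x.1 := rfl

@[simp] theorem coe_unionMap (s : Finset I) (x : {x // ∃ i ∈ s, A i x}) :
    (unionMap A σ hσ s x).1 = σ x.1 := rfl

variable (hA : ∀ i j x, A i x → A j x → i = j)

include hA in
theorem not_fiber_of_mem_union {i : I} {s : Finset I} (hi : i ∉ s)
    (y : {x // ∃ j ∈ s, A j x}) : ¬ A i y.1 := by
  intro hy
  obtain ⟨j, hj, hjy⟩ := y.2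
  have := hA i j y.1 hy hjy
  exact hi (this ▸ hj)

theorem mem_union_of_not_fiber [DecidableEq I] {i : I} {s : Finset I}
    (x : {x // ∃ j ∈ insert i s, A j x}) (hx : ¬ A i x.1) : ∃ j ∈ s, A j x.1 := by
  obtain ⟨j, hj, hjx⟩ := x.2
  rcases Finset.mem_insert.1 hj with rfl | hj'
  · exact absurd hjx hx
  · exact ⟨j, hj', hjx⟩

open Classical in
/-- `X_{insert i s} → X_i ⊕ X_s`. -/
def insertToSum [DecidableEq I] (i : I) (s : Finset I) :
    {x // ∃ j ∈ insert i s, A j x} → ({x // A i x} ⊕ {x // ∃ j ∈ s, A j x}) :=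
  fun x => if h : A i x.1 then Sum.inl ⟨x.1, h⟩ else Sum.inr ⟨x.1, mem_union_of_not_fiber A x h⟩

theorem insertToSum_of_pos [DecidableEq I] (i : I) (s : Finset I)
    (x : {x // ∃ j ∈ insert i s, A j x}) (h : A i x.1) :
    insertToSum A i s x = Sum.inl ⟨x.1, h⟩ := by
  unfold insertToSum
  rw [dif_pos h]

theorem insertToSum_of_neg [DecidableEq I] (i : I) (s : Finset I)
    (x : {x // ∃ j ∈ insert i s, A j x}) (h : ¬ A i x.1) :
    insertToSum A i s x = Sum.inr ⟨x.1, mem_union_of_not_fiber A x h⟩ := by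
  unfold insertToSum
  rw [dif_neg h]

/-- `X_i ⊕ X_s → X_{insert i s}`. -/
def sumToInsert [DecidableEq I] (i : I) (s : Finset I) :
    ({x // A i x} ⊕ {x // ∃ j ∈ s, A j x}) → {x // ∃ j ∈ insert i s, A j x}
  | Sum.inl y => ⟨y.1, i, Finset.mem_insert_self i s, y.2⟩
  | Sum.inr y => ⟨y.1, by
      obtain ⟨j, hj, hjy⟩ := y.2
      exact ⟨j, Finset.mem_insert_of_mem hj, hjy⟩⟩

include hA in
/-- `X_{insert i s} ≃ X_i ⊕ X_s` for `i ∉ s`. -/
theorem exists_insert_equiv [DecidableEq I] (i : I) (s : Finset I) (hi : i ∉ s) :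
    ∃ e : {x // ∃ j ∈ insert i s, A j x} ≃ ({x // A i x} ⊕ {x // ∃ j ∈ s, A j x}),
      ∀ x, e (unionMap A σ hσ (insert i s) x) =
        Sum.map (fiberMap A σ hσ i) (unionMap A σ hσ s) (e x) := by
  refine ⟨⟨insertToSum A i s, sumToInsert A i s, ?_, ?_⟩, ?_⟩
  · intro x
    by_cases h : A i x.1
    · rw [insertToSum_of_pos A i s x h]
      rfl
    · rw [insertToSum_of_neg A i s x h]
      rfl
  · intro y
    rcases y with y | y
    · exact insertToSum_of_pos A i s _ y.2
    · exact insertToSum_of_neg A i s _ (not_fiber_of_mem_union A hA hi y)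
  · intro x
    show insertToSum A i s (unionMap A σ hσ (insert i s) x) =
      Sum.map (fiberMap A σ hσ i) (unionMap A σ hσ s) (insertToSum A i s x)
    by_cases h : A i x.1
    · have h' : A i (unionMap A σ hσ (insert i s) x).1 := hσ i x.1 h
      rw [insertToSum_of_pos A i s _ h', insertToSum_of_pos A i s x h]
      rfl
    · have h' : ¬ A i (unionMap A σ hσ (insert i s) x).1 := by
        intro hc
        obtain ⟨j, hj, hjx⟩ := mem_union_of_not_fiber A x h
        have hjσ : A j (σ x.1) := hσ j x.1 hjx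
        have := hA i j (σ x.1) hc hjσ
        exact hi (this ▸ hj)
      rw [insertToSum_of_neg A i s _ h', insertToSum_of_neg A i s x h]
      rfl

include hA in
/-- The union of finitely many finite fibres is finite. -/
theorem finite_union [∀ i, Finite {x // A i x}] (s : Finset I) :
    Finite {x // ∃ i ∈ s, A i x} := by
  classical
  induction s using Finset.induction_on with
  | empty =>
    haveI : IsEmpty {x // ∃ i ∈ (∅ : Finset I), A i x} := ⟨fun x => by
      obtain ⟨i, hi, _⟩ := x.2
      exact absurd hi (Finset.notMem_empty i)⟩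
    infer_instance
  | insert i s hi ih =>
    haveI := ih
    obtain ⟨e, -⟩ := exists_insert_equiv A (id : X → X) (fun _ _ h => h) hA i s hi
    exact Finite.of_equiv _ e.symm

include hA in
theorem permCharpoly_union_aux [DecidableEq I] [∀ i, Finite {x // A i x}] (s : Finset I) :
    ∀ hfin : Finite {x // ∃ i ∈ s, A i x},
      @permCharpoly k _ _ hfin (unionMap A σ hσ s) =
        ∏ i ∈ s, permCharpoly k (fiberMap A σ hσ i) := by
  classical
  induction s using Finset.induction_on with
  | empty =>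
    intro hfin
    haveI : IsEmpty {x // ∃ i ∈ (∅ : Finset I), A i x} := ⟨fun x => by
      obtain ⟨i, hi, _⟩ := x.2
      exact absurd hi (Finset.notMem_empty i)⟩
    rw [Finset.prod_empty]
    exact permCharpoly_of_isEmpty k _
  | insert i s hi ih =>
    intro hfin
    haveI : Finite {x // ∃ j ∈ s, A j x} := finite_union A hA s
    obtain ⟨e, he⟩ := exists_insert_equiv A σ hσ hA i s hi
    rw [Finset.prod_insert hi, ← ih inferInstance, ← permCharpoly_sum]
    exact permCharpoly_congr_equiv k e _ _ he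

include hA in
/-- **`permCharpoly` of a disjoint union of fibres.** -/
theorem permCharpoly_union [DecidableEq I] [∀ i, Finite {x // A i x}] (s : Finset I)
    [hfin : Finite {x // ∃ i ∈ s, A i x}] :
    permCharpoly k (unionMap A σ hσ s) = ∏ i ∈ s, permCharpoly k (fiberMap A σ hσ i) :=
  permCharpoly_union_aux k A σ hσ hA s hfin

end Fiber

end Fermat.Agent.S56.H419

end
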