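import Fermat.Agent.S56.H419.H0Places
import Fermat.Agent.S56.H419.H0Fiber

/-!
# S56 / W-BASE / leaf EUL-H0, part 8 (helper419): the characteristic polynomials of the
right translations in terms of places of the level field

`F/ℚ` a finite Galois level, `U = G_F`, `σ ∈ G_ℚ`, `τ = σ|_F = resF F σ`.

* `permCharpoly_dcPerm_Dq` : `permCharpoly k (dcPerm D_q U σ)⁻¹ =
  permCharpoly k (τ⁻¹ | primes of 𝓞 F above q)`;
* `permCharpoly_dcPerm_Dinf` : `permCharpoly k (dcPerm ⟨c⟩ U σ)⁻¹ =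
  permCharpoly k (τ⁻¹ | InfinitePlace F)`;
* `prod_permCharpoly_primesOver` : the product over `q ∈ S` is
  `permCharpoly k (τ⁻¹ | primes of 𝓞 F above S)`.
-/

set_option autoImplicit false
set_option linter.style.haveILetI false
set_option linter.unusedSectionVars false

noncomputable section

open scoped Pointwise NumberField

namespace Fermat.Agent.S56.H419

open Fermat.Agent.S55.PT Fermat.Agent.S56.H614 ExtCitation MulAction NumberField Polynomial

section Primes

variable (F : IntermediateField ℚ (AlgebraicClosure ℚ))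

/-- `P` is a prime of `𝓞 F` above the rational prime `q`. -/
def IsPrimeOver (q : Nat.Primes) (P : Ideal (𝓞 F)) : Prop :=
  P.IsPrime ∧ ((q : ℕ) : 𝓞 F) ∈ P

variable {F}

theorem smul_natCast_ringOfIntegers' (τ : F ≃ₐ[ℚ] F) (n : ℕ) : τ • (n : 𝓞 F) = (n : 𝓞 F) := by
  apply RingOfIntegers.ext
  change τ ((n : 𝓞 F) : F) = ((n : 𝓞 F) : F)
  simp

theorem IsPrimeOver.smul (τ : F ≃ₐ[ℚ] F) {q : Nat.Primes} {P : Ideal (𝓞 F)}
    (h : IsPrimeOver F q P) : IsPrimeOver F q (τ • P) := by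
  haveI := h.1
  refine ⟨inferInstance, ?_⟩
  rw [← smul_natCast_ringOfIntegers' τ q]
  exact Ideal.smul_mem_pointwise_smul τ _ _ h.2

/-- A prime of `𝓞 F` lies above at most one rational prime. -/
theorem IsPrimeOver.unique {q q' : Nat.Primes} {P : Ideal (𝓞 F)}
    (h : IsPrimeOver F q P) (h' : IsPrimeOver F q' P) : q = q' := by
  by_contra hne
  have hcop : Nat.Coprime (q : ℕ) (q' : ℕ) := by
    rw [Nat.coprime_primes q.2 q'.2]
    intro hc
    exact hne (Subtype.ext hc)
  have h1 : ((Nat.gcdA q q' : ℤ) : 𝓞 F) * ((q : ℕ) : 𝓞 F) +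
      ((Nat.gcdB q q' : ℤ) : 𝓞 F) * ((q' : ℕ) : 𝓞 F) = 1 := by
    have hb := Nat.gcd_eq_gcd_ab q q'
    rw [hcop] at hb
    have : ((1 : ℕ) : ℤ) = (q : ℕ) * Nat.gcdA q q' + (q' : ℕ) * Nat.gcdB q q' := hb
    have h2 := congrArg (fun z : ℤ => (z : 𝓞 F)) this
    simp only [Nat.cast_one, Int.cast_one, Int.cast_add, Int.cast_mul, Int.cast_natCast] at h2
    rw [h2]
    ring
  have hmem : (1 : 𝓞 F) ∈ P := by
    rw [← h1]
    exact P.add_mem (P.mul_mem_left _ h.2) (P.mul_mem_left _ h'.2)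
  exact h.1.ne_top ((Ideal.eq_top_iff_one P).2 hmem)

variable (F) [Normal ℚ F] [FiniteDimensional ℚ F]

/-- `D_q\G_ℚ/G_F ≃ {primes of 𝓞 F above q}` (restatement of `primeDCEquiv`). -/
def primeOverEquiv (q : Nat.Primes) :
    DC (Dq q) F.fixingSubgroup ≃ {P : Ideal (𝓞 F) // IsPrimeOver F q P} :=
  primeDCEquiv q F

@[simp] theorem coe_primeOverEquiv (q : Nat.Primes) (ω : DC (Dq q) F.fixingSubgroup) :
    (primeOverEquiv F q ω : Ideal (𝓞 F)) = primeOfDC q F ω := rfl

instance finite_primeOver (q : Nat.Primes) : Finite {P : Ideal (𝓞 F) // IsPrimeOver F q P} :=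
  Finite.of_equiv _ (primeOverEquiv F q)

variable (k : Type*) [Field k]

/-- The permutation `P ↦ τ • P` of all ideals, restricted to the primes above `q`. -/
abbrev primeOverMap (τ : F ≃ₐ[ℚ] F) (q : Nat.Primes) :
    {P : Ideal (𝓞 F) // IsPrimeOver F q P} → {P : Ideal (𝓞 F) // IsPrimeOver F q P} :=
  fiberMap (IsPrimeOver F) (fun P => τ • P) (fun _ _ h => h.smul τ) q

/-- **Finite primes.** -/
theorem permCharpoly_dcPerm_Dq (q : Nat.Primes) (σ : GQ) :
    permCharpoly k (dcPerm (Dq q) F.fixingSubgroup σ).symm =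
      permCharpoly k (primeOverMap F (resF F σ)⁻¹ q) := by
  refine permCharpoly_congr_equiv k (primeOverEquiv F q) _ _ ?_
  intro ω
  apply Subtype.ext
  have h : (dcPerm (Dq q) F.fixingSubgroup σ).symm ω = dcPerm (Dq q) F.fixingSubgroup σ⁻¹ ω := by
    rw [Equiv.symm_apply_eq, ← Equiv.Perm.mul_apply, ← dcPerm_mul, mul_inv_cancel, dcPerm_one]
    rfl
  rw [h, coe_primeOverEquiv, primeOfDC_dcPerm, map_inv]
  rfl

/-- **Product over `S`.** -/
theorem prod_permCharpoly_primesOver (S : Finset Nat.Primes) (τ : F ≃ₐ[ℚ] F)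
    [Finite {P : Ideal (𝓞 F) // ∃ q ∈ S, IsPrimeOver F q P}] :
    ∏ q ∈ S, permCharpoly k (primeOverMap F τ q) =
      permCharpoly k (unionMap (IsPrimeOver F) (fun P => τ • P) (fun _ _ h => h.smul τ) S) := by
  classical
  exact (permCharpoly_union k (IsPrimeOver F) (fun P => τ • P) (fun _ _ h => h.smul τ)
    (fun _ _ _ h h' => h.unique h') S).symm

instance finite_primesOverS (S : Finset Nat.Primes) :
    Finite {P : Ideal (𝓞 F) // ∃ q ∈ S, IsPrimeOver F q P} :=
  finite_union (IsPrimeOver F) (fun _ _ _ h h' => h.unique h') S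

end Primes

section Infinite

variable (F : IntermediateField ℚ (AlgebraicClosure ℚ)) [Normal ℚ F] [FiniteDimensional ℚ F]
  (k : Type*) [Field k]

instance finite_infinitePlace : Finite (InfinitePlace F) :=
  Finite.of_equiv _ (placeDCEquiv F)

/-- **Infinite places.** -/
theorem permCharpoly_dcPerm_Dinf (σ : GQ) :
    permCharpoly k (dcPerm Dinf F.fixingSubgroup σ).symm =
      permCharpoly k (fun w : InfinitePlace F => (resF F σ)⁻¹ • w) := by
  refine permCharpoly_congr_equiv k (placeDCEquiv F) _ _ ?_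
  intro ω
  have h : (dcPerm Dinf F.fixingSubgroup σ).symm ω = dcPerm Dinf F.fixingSubgroup σ⁻¹ ω := by
    rw [Equiv.symm_apply_eq, ← Equiv.Perm.mul_apply, ← dcPerm_mul, mul_inv_cancel, dcPerm_one]
    rfl
  rw [h, placeDCEquiv_apply, placeOfDC_dcPerm, map_inv]
  rfl

end Infinite

end Fermat.Agent.S56.H419

end
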