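import Fermat.Agent.S56.H419.H0Ind

/-!
# S56 / W-BASE / leaf EUL-H0, part 5 (helper419): the Tate dual of an induced module

For `U` of finite index, `dualIndEquiv : (G ⧸ U →₀ M^*) ≃ₗ (G ⧸ U →₀ M)^*`,
`b ↦ (a ↦ ∑ₓ b x (a x))`, is an isomorphism of representations

  `Ind_U (M′) ≅ (Ind_U M)′`        (`′ = dualTwist χ`, any character `χ`)

(`dualIndEquiv_equivariant`) which intertwines the right translation `indR σ` on the left with
the contragredient `(indR σ⁻¹)^*` of the right translation on the right (`dualIndEquiv_indR`).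

Consequently, if `M = k(χ)` (e.g. `M = μ_p`, `χ` the cyclotomic character), `M′` is a trivial
representation and `H⁰(G', (Ind_U M)′|_{G'}) ≃ (r(G')\G/U →₀ M^*)` for every `r : G' → G`
(`resTdualIndH0Equiv`), the contragredient right translation becoming the permutation action of
`dcPerm σ` (`resTdualIndH0Equiv_indR`).
-/

set_option autoImplicit false
set_option linter.style.haveILetI false

noncomputable section

namespace Fermat.Agent.S56.H419

open Fermat.Agent.S55.PT groupCohomology MulAction

variable {k : Type} [Field k] {G : Type} [Group G]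

section Dual

variable (U : Subgroup G) (M : Rep.{0, 0, 0} k G)

/-- `(G ⧸ U →₀ M^*) ≃ (G ⧸ U →₀ M)^*`. -/
def dualIndEquiv [U.FiniteIndex] :
    ((G ⧸ U) →₀ Module.Dual k M) ≃ₗ[k] Module.Dual k ((G ⧸ U) →₀ M) :=
  (Finsupp.linearEquivFunOnFinite k (Module.Dual k M) (G ⧸ U)).trans (Finsupp.lsum k)

theorem dualIndEquiv_apply_single [U.FiniteIndex] (b : (G ⧸ U) →₀ Module.Dual k M)
    (x : G ⧸ U) (m : M) :
    dualIndEquiv U M b (Finsupp.single x m) = b x m := by
  simp [dualIndEquiv]

theorem dualIndEquiv_single_single [U.FiniteIndex] [DecidableEq (G ⧸ U)] (x y : G ⧸ U)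
    (f : Module.Dual k M) (m : M) :
    dualIndEquiv U M (Finsupp.single x f) (Finsupp.single y m) = if x = y then f m else 0 := by
  rw [dualIndEquiv_apply_single, Finsupp.single_apply]
  split_ifs <;> simp

variable (χ : G →* kˣ)

/-- `dualIndEquiv` is an isomorphism of representations `Ind_U (M′) ≅ (Ind_U M)′`. -/
theorem dualIndEquiv_equivariant [U.FiniteIndex] :
    IsEquivariant (A := indRep U (M.dualTwist χ)) (B := (indRep U M).dualTwist χ)
      (dualIndEquiv U M : ((G ⧸ U) →₀ Module.Dual k M) →ₗ[k] Module.Dual k ((G ⧸ U) →₀ M)) := by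
  classical
  intro g b
  have key : ((dualIndEquiv U M : ((G ⧸ U) →₀ Module.Dual k M) →ₗ[k] _) ∘ₗ
      (indAct U (M.dualTwist χ) g)) =
      ((((indRep U M).dualTwist χ).ρ g : Module.Dual k ((G ⧸ U) →₀ M) →ₗ[k] _) ∘ₗ
        (dualIndEquiv U M : ((G ⧸ U) →₀ Module.Dual k M) →ₗ[k] _)) := by
    apply Finsupp.lhom_ext
    intro x f
    apply Finsupp.lhom_ext
    intro y m
    rw [LinearMap.comp_apply, LinearMap.comp_apply, indAct_single]
    show dualIndEquiv U M (Finsupp.single (g • x) ((M.dualTwist χ).ρ g f)) (Finsupp.single y m) =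
      (((indRep U M).dualTwist χ).ρ g (dualIndEquiv U M (Finsupp.single x f)))
        (Finsupp.single y m)
    rw [Rep.dualTwist_ρ_apply, Rep.dualTwist_ρ_apply, LinearMap.smul_apply,
      LinearMap.comp_apply]
    have h1 : (indRep U M).ρ g⁻¹ (Finsupp.single y m : (G ⧸ U) →₀ M) =
        (Finsupp.single (g⁻¹ • y) (M.ρ g⁻¹ m) : (G ⧸ U) →₀ M) := indRep_ρ_single U M g⁻¹ y m
    rw [h1, dualIndEquiv_single_single, dualIndEquiv_single_single, LinearMap.smul_apply,
      LinearMap.comp_apply]
    by_cases h : g • x = y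
    · have h' : x = g⁻¹ • y := by rw [← h, inv_smul_smul]
      rw [if_pos h, if_pos h']
    · have h' : ¬ x = g⁻¹ • y := by
        intro hx
        apply h
        rw [hx, smul_inv_smul]
      rw [if_neg h, if_neg h', smul_zero]
  exact LinearMap.congr_fun key b

/-- **Intertwining (dual).** `dualIndEquiv` carries the right translation `indR σ` to the
contragredient `(indR σ⁻¹)^*`. -/
theorem dualIndEquiv_indR [U.Normal] [U.FiniteIndex] (σ : G)
    (b : (G ⧸ U) →₀ Module.Dual k M) :
    dualIndEquiv U M (indR U (M.dualTwist χ) σ b) =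
      (indR U M σ⁻¹).dualMap (dualIndEquiv U M b) := by
  classical
  have key : ((dualIndEquiv U M : ((G ⧸ U) →₀ Module.Dual k M) →ₗ[k] _) ∘ₗ
      (indR U (M.dualTwist χ) σ)) =
      ((indR U M σ⁻¹).dualMap ∘ₗ
        (dualIndEquiv U M : ((G ⧸ U) →₀ Module.Dual k M) →ₗ[k] _)) := by
    apply Finsupp.lhom_ext
    intro x f
    apply Finsupp.lhom_ext
    intro y m
    rw [LinearMap.comp_apply, LinearMap.comp_apply, indR_single, LinearMap.dualMap_apply,
      indR_single]
    show dualIndEquiv U M (Finsupp.single (rightTr U σ x) f) (Finsupp.single y m) =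
      dualIndEquiv U M (Finsupp.single x f) (Finsupp.single (rightTr U σ⁻¹ y) m)
    rw [dualIndEquiv_single_single, dualIndEquiv_single_single]
    have hiff : rightTr U σ x = y ↔ x = rightTr U σ⁻¹ y := by
      simp only [rightTr_apply, QuotientGroup.mk_inv, inv_inv]
      constructor
      · rintro rfl
        rw [inv_mul_cancel_right]
      · rintro rfl
        rw [mul_inv_cancel_right]
    by_cases h : rightTr U σ x = y
    · rw [if_pos h, if_pos (hiff.1 h)]
    · rw [if_neg h, if_neg (fun h' => h (hiff.2 h'))]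
  exact LinearMap.congr_fun key b

/-- The contragredient of the right translation on `(Ind_U M)′`. -/
def indRDual [U.Normal] (σ : G) :
    Module.Dual k ((G ⧸ U) →₀ M) →ₗ[k] Module.Dual k ((G ⧸ U) →₀ M) :=
  (indR U M σ⁻¹).dualMap

theorem indRDual_equivariant [U.Normal] (σ : G) :
    IsEquivariant (A := (indRep U M).dualTwist χ) (B := (indRep U M).dualTwist χ)
      (indRDual U M σ) :=
  dualMap_equivariant χ (A := indRep U M) (B := indRep U M) (indR U M σ⁻¹)
    (indR_equivariant U M σ⁻¹)

theorem indRDual_one [U.Normal] : indRDual U M (1 : G) = LinearMap.id := by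
  rw [indRDual, inv_one, indR_one]
  exact LinearMap.dualMap_id

theorem indRDual_mul [U.Normal] (σ τ : G) :
    indRDual U M (σ * τ) = indRDual U M σ ∘ₗ indRDual U M τ := by
  rw [indRDual, indRDual, indRDual, mul_inv_rev, indR_mul, LinearMap.dualMap_comp_dualMap]

end Dual

/-! ### `H⁰` of the Tate dual of `Ind_U k(χ)` -/

section TdualH0

variable {G' : Type} [Group G'] (r : G' →* G) (U : Subgroup G) (M : Rep.{0, 0, 0} k G)
  (χ : G →* kˣ)

/-- If `G` acts on `M` through `χ`, it acts trivially on `M′ = M^* ⊗ χ`. -/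
theorem dualTwist_trivial_of_char (hM : ∀ (g : G) (m : M), M.ρ g m = (χ g : k) • m) (g : G)
    (f : Module.Dual k M) : (M.dualTwist χ).ρ g f = f := by
  apply LinearMap.ext
  intro m
  rw [Rep.dualTwist_ρ_apply, LinearMap.smul_apply, LinearMap.comp_apply, hM, map_smul,
    smul_smul, map_inv, ← Units.val_mul, mul_inv_cancel, Units.val_one, one_smul]

/-- `H⁰(G', (Ind_U M)′|_{G'}) → H⁰(G', Ind_U(M′)|_{G'})`, the inverse of `dualIndEquiv`. -/
def tdualToInd [U.FiniteIndex] :
    ↥(LevelSys.H0 (Rep.res r ((indRep U M).dualTwist χ))) ≃ₗ[k]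
      ↥(LevelSys.H0 (Rep.res r (indRep U (M.dualTwist χ)))) where
  toFun a := ⟨(dualIndEquiv U M).symm a.1, by
    intro g
    apply (dualIndEquiv U M).injective
    have h1 := dualIndEquiv_equivariant U M χ (r g) ((dualIndEquiv U M).symm a.1)
    have h2 : ((indRep U M).dualTwist χ).ρ (r g) a.1 = a.1 := a.2 g
    show dualIndEquiv U M ((indRep U (M.dualTwist χ)).ρ (r g) ((dualIndEquiv U M).symm a.1)) = _
    rw [LinearEquiv.coe_coe] at h1
    rw [h1, LinearEquiv.apply_symm_apply, h2]⟩
  map_add' a b := by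
    apply Subtype.ext
    exact map_add (dualIndEquiv U M).symm a.1 b.1
  map_smul' c a := by
    apply Subtype.ext
    exact map_smul (dualIndEquiv U M).symm c a.1
  invFun b := ⟨dualIndEquiv U M b.1, by
    intro g
    have h1 := dualIndEquiv_equivariant U M χ (r g) b.1
    have h2 : (indRep U (M.dualTwist χ)).ρ (r g) b.1 = b.1 := b.2 g
    show ((indRep U M).dualTwist χ).ρ (r g) (dualIndEquiv U M b.1) = _
    rw [LinearEquiv.coe_coe] at h1
    rw [← h1, h2]⟩
  left_inv a := by
    apply Subtype.ext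
    exact (dualIndEquiv U M).apply_symm_apply a.1
  right_inv b := by
    apply Subtype.ext
    exact (dualIndEquiv U M).symm_apply_apply b.1

@[simp] theorem coe_tdualToInd [U.FiniteIndex]
    (a : ↥(LevelSys.H0 (Rep.res r ((indRep U M).dualTwist χ)))) :
    ((tdualToInd r U M χ a).1 : (G ⧸ U) →₀ Module.Dual k M) = (dualIndEquiv U M).symm a.1 := rfl

/-- **Local invariants of the Tate dual.** If `G` acts on `M` through `χ`:
`H⁰(G', (Ind_U M)′|_{G'}) ≃ (r(G')\G/U →₀ M^*)`. -/
def resTdualIndH0Equiv [U.FiniteIndex]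
    (hM : ∀ (g : G) (m : M), M.ρ g m = (χ g : k) • m) :
    ↥(LevelSys.H0 (Rep.res r ((indRep U M).dualTwist χ))) ≃ₗ[k]
      (DC r.range U →₀ Module.Dual k M) :=
  (tdualToInd r U M χ).trans
    (resIndH0Equiv r U (M.dualTwist χ) (fun g f => dualTwist_trivial_of_char M χ hM (r g) f))

theorem indRDual_res_equivariant [U.Normal] (σ : G) :
    IsEquivariant (A := Rep.res r ((indRep U M).dualTwist χ))
      (B := Rep.res r ((indRep U M).dualTwist χ)) (indRDual U M σ) :=
  fun g a => indRDual_equivariant U M χ σ (r g) a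

/-- **Intertwining (local, Tate dual).** The contragredient right translation on
`H⁰(G', (Ind_U M)′)` is the permutation action of `dcPerm σ` on `r(G')\G/U`. -/
theorem resTdualIndH0Equiv_indR [U.Normal] [U.FiniteIndex]
    (hM : ∀ (g : G) (m : M), M.ρ g m = (χ g : k) • m) (σ : G)
    (a : ↥(LevelSys.H0 (Rep.res r ((indRep U M).dualTwist χ)))) :
    resTdualIndH0Equiv r U M χ hM
        (pushH0 (A := Rep.res r ((indRep U M).dualTwist χ))
          (B := Rep.res r ((indRep U M).dualTwist χ)) (indRDual U M σ)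
          (indRDual_res_equivariant r U M χ σ) a) =
      Finsupp.mapDomain (dcPerm r.range U σ) (resTdualIndH0Equiv r U M χ hM a) := by
  have hcomm : tdualToInd r U M χ
      (pushH0 (A := Rep.res r ((indRep U M).dualTwist χ))
        (B := Rep.res r ((indRep U M).dualTwist χ)) (indRDual U M σ)
        (indRDual_res_equivariant r U M χ σ) a) =
      pushH0 (A := Rep.res r (indRep U (M.dualTwist χ)))
        (B := Rep.res r (indRep U (M.dualTwist χ))) (indR U (M.dualTwist χ) σ)
        (indR_res_equivariant r U (M.dualTwist χ) σ) (tdualToInd r U M χ a) := by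
    apply Subtype.ext
    apply (dualIndEquiv U M).injective
    rw [coe_tdualToInd, LinearEquiv.apply_symm_apply, coe_pushH0, coe_pushH0, dualIndEquiv_indR,
      coe_tdualToInd, LinearEquiv.apply_symm_apply]
    rfl
  have hM' : ∀ (g : G') (f : (M.dualTwist χ)), (M.dualTwist χ).ρ (r g) f = f :=
    fun g f => dualTwist_trivial_of_char M χ hM (r g) f
  show resIndH0Equiv r U (M.dualTwist χ) hM' (tdualToInd r U M χ _) =
    Finsupp.mapDomain (dcPerm r.range U σ)
      (resIndH0Equiv r U (M.dualTwist χ) hM' (tdualToInd r U M χ a))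
  rw [hcomm, resIndH0Equiv_indR]

end TdualH0

end Fermat.Agent.S56.H419

end
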