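import Fermat.Agent.S56.H419.H0Final
import Fermat.Agent.S55.Bridge.Cyclo

/-!
# S56 / W-BASE / leaf EUL-H0, part 11 (helper419): the term `μ_p(F)`

`F/ℚ` a finite Galois level, `U = G_F`, `σ ∈ G_ℚ`, `τ = σ|_F`.  For ANY model `(W, ι, gμ)` of the
`Gal(F/ℚ)`-module `μ_p(F)` in the sense of `Euler.H896.herbCharpoly` (`W` a finite
`𝔽_p`-vector space, `ι : W → Fˣ` additive, injective, with range the `p`-torsion, `gμ` induced by
`τ`):

  `gμ.charpoly = charpoly (R_σ | H⁰(G_ℚ, Ind_U μ_p))`                      (`charpoly_muModel`).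
-/

set_option autoImplicit false
set_option linter.style.haveILetI false
set_option linter.unusedSectionVars false

noncomputable section

open scoped Pointwise NumberField

namespace Fermat.Agent.S56.H419

open Fermat.Agent.S55.PT Fermat.Agent.S55.G Fermat.Agent.S55.Bridge ExtCitation MulAction
  NumberField Polynomial groupCohomology

attribute [local instance] Fermat.Agent.S55.Bridge.isAlgebraic_Qbar
  Fermat.Agent.S55.Bridge.isGalois_Qbar

section Mu

variable (p : ℕ) [Fact p.Prime] (F : IntermediateField ℚ (AlgebraicClosure ℚ))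

/-- The image in `ℚ̄ˣ` of a unit of `F`. -/
def unitToQbar : Fˣ →* (AlgebraicClosure ℚ)ˣ :=
  Units.map ((algebraMap F (AlgebraicClosure ℚ) : F →+* AlgebraicClosure ℚ) : F →* _)

@[simp] theorem coe_unitToQbar (z : Fˣ) :
    ((unitToQbar F z : (AlgebraicClosure ℚ)ˣ) : AlgebraicClosure ℚ) = ((z : F) : _) := rfl

theorem unitToQbar_injective : Function.Injective (unitToQbar F) := by
  intro a b h
  apply Units.ext
  apply Subtype.ext
  have := congrArg (fun t : (AlgebraicClosure ℚ)ˣ => (t : AlgebraicClosure ℚ)) h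
  exact this

theorem unitToQbar_mem_rootsOfUnity {z : Fˣ} (hz : z ^ p = 1) :
    unitToQbar F z ∈ rootsOfUnity p (AlgebraicClosure ℚ) := by
  rw [mem_rootsOfUnity, ← map_pow, hz, map_one]

variable [Normal ℚ F]

/-- `τ = σ|_F` raises a `p`-th root of unity of `F` to the power `χ(σ)`. -/
theorem map_resF_eq_pow (σ : GQ) {z : Fˣ} (hz : z ^ p = 1) :
    Units.map ((resF F σ : F →+* F) : F →* F) z =
      z ^ ((cycloChar p σ : (ZMod p)ˣ) : ZMod p).val := by
  apply unitToQbar_injective F
  apply Units.ext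
  rw [map_pow, Units.val_pow_eq_pow_val, coe_unitToQbar, coe_unitToQbar]
  have h := cycloChar_spec p σ (unitToQbar_mem_rootsOfUnity p F hz)
  rw [coe_unitToQbar] at h
  exact (resF_apply_coe F σ (z : F)).trans h

/-- If `σ` fixes `F` pointwise and `χ(σ) ≠ 1` then `F` has no nontrivial `p`-th root of unity. -/
theorem eq_one_of_pow_eq_one_of_cycloChar_ne_one {u : GQ} (hu : u ∈ F.fixingSubgroup)
    (hχ : cycloChar p u ≠ 1) {z : Fˣ} (hz : z ^ p = 1) : z = 1 := by
  have hp : p.Prime := Fact.out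
  have h1 : resF F u = 1 := by
    have : u ∈ (resF F).ker := by rw [ker_resF]; exact hu
    exact this
  have h2 := map_resF_eq_pow p F u hz
  rw [h1] at h2
  have h3 : z = z ^ ((cycloChar p u : (ZMod p)ˣ) : ZMod p).val := by
    rw [← h2]
    apply Units.ext
    rfl
  set n := ((cycloChar p u : (ZMod p)ˣ) : ZMod p).val with hn
  have hn1 : n ≠ 1 := by
    intro h
    apply hχ
    apply Units.ext
    rw [Units.val_one]
    have hval : ((cycloChar p u : (ZMod p)ˣ) : ZMod p).val = (1 : ZMod p).val := by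
      haveI : Fact (1 < p) := ⟨hp.one_lt⟩
      rw [ZMod.val_one]
      exact h
    exact ZMod.val_injective p hval
  have hn0 : n ≠ 0 := by
    intro h
    have : ((cycloChar p u : (ZMod p)ˣ) : ZMod p) = 0 := by
      rw [← ZMod.val_eq_zero]
      exact h
    exact (cycloChar p u).ne_zero this
  have hnp : n < p := ZMod.val_lt _
  have h4 : z ^ (n - 1) = 1 := by
    have h5 : z ^ (n - 1) * z = z := by
      rw [← pow_succ, Nat.sub_add_cancel (Nat.one_le_iff_ne_zero.2 hn0)]
      exact h3.symm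
    exact mul_eq_right.mp h5
  have hord : orderOf z ∣ Nat.gcd (n - 1) p :=
    Nat.dvd_gcd (orderOf_dvd_of_pow_eq_one h4) (orderOf_dvd_of_pow_eq_one hz)
  have hgcd : Nat.gcd (n - 1) p = 1 := by
    rw [Nat.gcd_comm]
    have hnd : ¬ p ∣ n - 1 := Nat.not_dvd_of_pos_of_lt (by omega) (by omega)
    exact (Nat.Prime.coprime_iff_not_dvd hp).2 hnd
  rw [hgcd, Nat.dvd_one, orderOf_eq_one_iff] at hord
  exact hord

end Mu

section Model

variable (p : ℕ) [Fact p.Prime] (F : IntermediateField ℚ (AlgebraicClosure ℚ)) [NumberField F]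
  [IsGalois ℚ F] [FiniteDimensional ℚ F]
  {W : Type*} [AddCommGroup W] [Module (ZMod p) W] [Module.Finite (ZMod p) W]
  (gμ : W →ₗ[ZMod p] W) (ι : W →+ Additive Fˣ) (hι : Function.Injective ι)
  (hιr : ∀ a, a ∈ ι.range ↔ p • a = 0) (σ : GQ)
  (hgμ : ∀ w, ι (gμ w) = unitsHom ℚ F (resF F σ) (ι w))

include hιr in
theorem model_pow_eq_one (w : W) : (ι w).toMul ^ p = 1 := by
  have h : p • ι w = 0 := (hιr (ι w)).1 ⟨w, rfl⟩
  have h2 := congrArg Additive.toMul h
  rw [toMul_nsmul, toMul_zero] at h2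
  exact h2

include hι hιr hgμ in
/-- `gμ` is multiplication by `χ(σ)`. -/
theorem model_gμ_eq_smul (w : W) : gμ w = ((cycloChar p σ : (ZMod p)ˣ) : ZMod p) • w := by
  apply hι
  have h1 : unitsHom ℚ F (resF F σ) (ι w) =
      Additive.ofMul (Units.map ((resF F σ : F →+* F) : F →* F) (ι w).toMul) := rfl
  rw [hgμ, h1, map_resF_eq_pow p F σ (model_pow_eq_one p F ι hιr w), ofMul_pow, ofMul_toMul]
  set n := ((cycloChar p σ : (ZMod p)ˣ) : ZMod p).val with hn
  have h2 : ((cycloChar p σ : (ZMod p)ˣ) : ZMod p) • w = n • w := by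
    rw [← Nat.cast_smul_eq_nsmul (ZMod p) n w, hn, ZMod.natCast_zmod_val]
  rw [h2, map_nsmul]

include hι hιr in
/-- If `χ|_U ≠ 1` then `μ_p(F) = 0`. -/
theorem finrank_model_of_nontrivial (hχ : ∃ u ∈ F.fixingSubgroup, cycloChar p u ≠ 1) :
    Module.finrank (ZMod p) W = 0 := by
  obtain ⟨u, hu, hne⟩ := hχ
  haveI : Subsingleton W := by
    refine ⟨fun a b => ?_⟩
    have key : ∀ w : W, w = 0 := by
      intro w
      apply hι
      have h1 := eq_one_of_pow_eq_one_of_cycloChar_ne_one p F hu hne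
        (model_pow_eq_one p F ι hιr w)
      rw [map_zero]
      exact congrArg Additive.ofMul h1
    rw [key a, key b]
  exact Module.finrank_zero_of_subsingleton

include hι hιr in
/-- If `χ|_U = 1` then `μ_p(F)` is a line. -/
theorem finrank_model_of_trivial (hχ : ∀ u ∈ F.fixingSubgroup, cycloChar p u = 1) :
    Module.finrank (ZMod p) W = 1 := by
  have hp : p.Prime := Fact.out
  haveI : NeZero p := ⟨hp.ne_zero⟩
  -- the bijection `W ≃ μ_p(ℚ̄)`
  let f : W → rootsOfUnity p (AlgebraicClosure ℚ) := fun w =>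
    ⟨unitToQbar F (ι w).toMul, unitToQbar_mem_rootsOfUnity p F (model_pow_eq_one p F ι hιr w)⟩
  have hf_inj : Function.Injective f := by
    intro a b h
    apply hι
    have h1 : unitToQbar F (ι a).toMul = unitToQbar F (ι b).toMul := congrArg Subtype.val h
    exact Additive.toMul.injective (unitToQbar_injective F h1)
  have hf_surj : Function.Surjective f := by
    intro t
    have hfix : ∀ u ∈ F.fixingSubgroup, u ((t.1 : (AlgebraicClosure ℚ)ˣ) : AlgebraicClosure ℚ) =
        ((t.1 : (AlgebraicClosure ℚ)ˣ) : AlgebraicClosure ℚ) := fun u hu =>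
      (cycloChar_eq_one_iff p u).1 (hχ u hu) t.1 t.2
    have hmem : ((t.1 : (AlgebraicClosure ℚ)ˣ) : AlgebraicClosure ℚ) ∈ F := by
      rw [← InfiniteGalois.fixedField_fixingSubgroup F, IntermediateField.mem_fixedField_iff]
      exact hfix
    have hne : (⟨_, hmem⟩ : F) ≠ 0 := by
      intro h0
      have := congrArg Subtype.val h0
      exact (t.1 : (AlgebraicClosure ℚ)ˣ).ne_zero this
    let z : Fˣ := Units.mk0 ⟨_, hmem⟩ hne
    have hz : unitToQbar F z = t.1 := by
      apply Units.ext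
      rfl
    have hzp : z ^ p = 1 := by
      apply unitToQbar_injective F
      rw [map_pow, hz, map_one]
      exact (mem_rootsOfUnity p t.1).1 t.2
    have hmem2 : Additive.ofMul z ∈ ι.range := by
      rw [hιr, ← ofMul_pow, hzp, ofMul_one]
    obtain ⟨w, hw⟩ := hmem2
    refine ⟨w, ?_⟩
    apply Subtype.ext
    show unitToQbar F (ι w).toMul = t.1
    rw [hw, toMul_ofMul, hz]
  have hcard : Nat.card W = p := by
    rw [Nat.card_congr (Equiv.ofBijective f ⟨hf_inj, hf_surj⟩)]
    exact card_rootsOfUnity_eq_self p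
  have h2 := Module.natCard_eq_pow_finrank (K := ZMod p) (V := W)
  rw [hcard, Nat.card_eq_fintype_card, ZMod.card] at h2
  have h3 : p ^ 1 = p ^ Module.finrank (ZMod p) W := by rw [pow_one]; exact h2
  exact (Nat.pow_right_injective hp.two_le h3).symm

theorem mu_ρ_apply (g : GQ) (m : mu p) :
    (mu p).ρ g m = ((cycloChar p g : (ZMod p)ˣ) : ZMod p) • m := rfl

include hι hιr hgμ in
/-- **The `μ_p(F)` term.** For any model `(W, ι, gμ)` of `μ_p(F)`, the characteristic polynomial
of `gμ` is that of the right translation on `H⁰(G_ℚ, Ind_U μ_p)`. -/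
theorem charpoly_muModel :
    gμ.charpoly =
      (pushH0 (A := indRep F.fixingSubgroup (mu p)) (B := indRep F.fixingSubgroup (mu p))
        (indR F.fixingSubgroup (mu p) σ)
        (indR_equivariant F.fixingSubgroup (mu p) σ)).charpoly := by
  haveI : Module.Finite (ZMod p) (mu p) := inferInstanceAs (Module.Finite (ZMod p) (ZMod p))
  rw [charpoly_H0_glob_char F.fixingSubgroup (mu p) (cycloChar p) (mu_ρ_apply p) σ,
    charpoly_of_forall_smul gμ _ (model_gμ_eq_smul p F gμ ι hι hιr σ hgμ)]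
  congr 1
  by_cases hχ : ∀ u ∈ F.fixingSubgroup, cycloChar p u = 1
  · rw [finrank_model_of_trivial p F ι hι hιr hχ,
      finrank_invU_of_trivial F.fixingSubgroup (mu p) (cycloChar p) (mu_ρ_apply p) hχ]
    exact (Module.finrank_self (ZMod p)).symm
  · push Not at hχ
    rw [finrank_model_of_nontrivial p F ι hι hιr hχ,
      finrank_invU_of_nontrivial F.fixingSubgroup (mu p) (cycloChar p) (mu_ρ_apply p) hχ]

end Model

end Fermat.Agent.S56.H419

end
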