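import Fermat.Agent.S56.H419.H0Herb

/-!
# S56 / W-BASE / CE-H1 helper (helper419): HERB with the `μ_p(F)` model built in

`Euler.H896.herbCharpoly` / `H419.herb_H0` take two models: `(V, π, g)` of `E_S(F)/p` and
`(W, ι, gμ)` of `μ_p(F)`.  Here the second one is constructed (`muTors p F` = the `p`-torsion of
`Additive Fˣ` with its `ZMod p`-module structure, `muTorsEnd p F τ` = the action of `τ`), so that
the `H¹` term of CHAR-EULER-BIG needs ONLY a model of `E_S(F)/p`:

    theorem herb_model (hχ : χ_p|_{G_F} = 1) (g) (π : sUnits ℚ F (primesT S) →+ V)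
        (hπ : Surjective π) (hπk : ∀ a, π a = 0 → ∃ b, a = p • b)
        (hg : ∀ a b, (b : Additive Fˣ) = unitsHom ℚ F (resF F σ) a → π b = g (π a)) :
      g.charpoly * (X - 1) = (X - C χ_p(σ)) * permCharpoly (τ⁻¹ | InfinitePlace F)
                                * permCharpoly (primePerm ℚ F (primesT S) τ)

which is the conclusion of `Euler.CEH1Spec` for `V = H¹_S(Ind_U μ_p)`, `g = pushH1 (indR σ)`,
`π = kumMap ∘ dictionary`.
-/

set_option autoImplicit false
set_option linter.style.haveILetI false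
set_option linter.unusedSectionVars false

noncomputable section

open scoped Pointwise NumberField

namespace Fermat.Agent.S56.H419

open Fermat.Agent.S55.PT Fermat.Agent.S55.G Fermat.Agent.S56.H614 ExtCitation MulAction
  NumberField Polynomial groupCohomology

section MuModel

variable (p : ℕ) [Fact p.Prime] (F : IntermediateField ℚ (AlgebraicClosure ℚ)) [NumberField F]
  [IsGalois ℚ F] [FiniteDimensional ℚ F]

/-- The `p`-torsion of `Fˣ`, additively: a model of `μ_p(F)`. -/
def muTors : AddSubgroup (Additive Fˣ) where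
  carrier := {a | p • a = 0}
  zero_mem' := nsmul_zero p
  add_mem' := by
    intro a b ha hb
    show p • (a + b) = 0
    have ha' : p • a = 0 := ha
    have hb' : p • b = 0 := hb
    rw [nsmul_add, ha', hb', add_zero]
  neg_mem' := by
    intro a ha
    show p • (-a) = 0
    have ha' : p • a = 0 := ha
    rw [neg_nsmul, ha', neg_zero]

theorem mem_muTors {a : Additive Fˣ} : a ∈ muTors p F ↔ p • a = 0 := Iff.rfl

instance muTorsModule : Module (ZMod p) ↥(muTors p F) :=
  AddCommGroup.zmodModule (fun x => Subtype.ext x.2)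

instance muTors_finite : Finite ↥(muTors p F) := by
  haveI : NeZero p := ⟨(Fact.out : p.Prime).ne_zero⟩
  let f : ↥(muTors p F) → ↥(rootsOfUnity p F) := fun a =>
    ⟨(a.1 : Additive Fˣ).toMul, by
      rw [mem_rootsOfUnity]
      have h := congrArg Additive.toMul a.2
      rw [toMul_nsmul, toMul_zero] at h
      exact h⟩
  have hf : Function.Injective f := by
    intro a b h
    apply Subtype.ext
    have h1 : (a.1 : Additive Fˣ).toMul = (b.1 : Additive Fˣ).toMul := congrArg Subtype.val h
    exact Additive.toMul.injective h1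
  exact Finite.of_injective f hf

instance muTors_moduleFinite : Module.Finite (ZMod p) ↥(muTors p F) := Module.Finite.of_finite

/-- The action of `τ` on `μ_p(F)`. -/
def muTorsAdd (τ : F ≃ₐ[ℚ] F) : ↥(muTors p F) →+ ↥(muTors p F) :=
  AddMonoidHom.codRestrict ((unitsHom ℚ F τ).comp (muTors p F).subtype) (muTors p F)
    (fun a => by
      show p • (unitsHom ℚ F τ (a : Additive Fˣ)) = 0
      rw [← map_nsmul, a.2, map_zero])

/-- The action of `τ` on `μ_p(F)`, `ZMod p`-linear. -/
def muTorsEnd (τ : F ≃ₐ[ℚ] F) : ↥(muTors p F) →ₗ[ZMod p] ↥(muTors p F) :=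
  (muTorsAdd p F τ).toZModLinearMap p

theorem coe_muTorsEnd (τ : F ≃ₐ[ℚ] F) (a : ↥(muTors p F)) :
    ((muTorsEnd p F τ a : ↥(muTors p F)) : Additive Fˣ) = unitsHom ℚ F τ (a : Additive Fˣ) := rfl

end MuModel

section Herb

variable (p : ℕ) [Fact p.Prime] (F : IntermediateField ℚ (AlgebraicClosure ℚ)) [NumberField F]
  [IsGalois ℚ F] [FiniteDimensional ℚ F] (S : Finset Nat.Primes) (σ : GQ)

/-- **HERB for a model of `E_S(F)/p`, in the shape of `Euler.CEH1Spec`.** -/
theorem herb_model (hχ : ∀ u ∈ F.fixingSubgroup, cycloChar p u = 1)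
    {V : Type*} [AddCommGroup V] [Module (ZMod p) V] [Module.Finite (ZMod p) V]
    (g : V →ₗ[ZMod p] V) (π : ↥(sUnits ℚ F (primesT S)) →+ V) (hπ : Function.Surjective π)
    (hπk : ∀ a, π a = 0 → ∃ b, a = p • b)
    (hg : ∀ a b : ↥(sUnits ℚ F (primesT S)),
      (b : Additive Fˣ) = unitsHom ℚ F (resF F σ) a → π b = g (π a)) :
    g.charpoly * (X - 1) =
      (X - C (((cycloChar p σ : (ZMod p)ˣ) : ZMod p))) *
        permCharpoly (ZMod p) (fun w : InfinitePlace F => (resF F σ)⁻¹ • w) *
        permCharpoly (ZMod p) (primePerm ℚ F (primesT S) (resF F σ)) := by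
  haveI : Module.Finite (ZMod p) (mu p) := inferInstanceAs (Module.Finite (ZMod p) (ZMod p))
  have h1 : Module.finrank (ZMod p) (mu p) = 1 := Module.finrank_self (ZMod p)
  have h := herb_H0 p F S σ g π hπ hπk hg (muTorsEnd p F (resF F σ)) (muTors p F).subtype
    Subtype.val_injective
    (fun a => by
      constructor
      · rintro ⟨w, rfl⟩
        exact w.2
      · intro ha
        exact ⟨⟨a, ha⟩, rfl⟩)
    (fun w => rfl)
  rw [charpoly_H0_glob_tdual F.fixingSubgroup (mu p) (cycloChar p) (mu_ρ_apply p) h1 σ,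
    charpoly_H0_glob_char F.fixingSubgroup (mu p) (cycloChar p) (mu_ρ_apply p) σ,
    finrank_invU_of_trivial F.fixingSubgroup (mu p) (cycloChar p) (mu_ρ_apply p) hχ, h1, pow_one,
    charpoly_minus F (mu p) (mu_ρ_complexConjugation p) h1 σ,
    charpoly_H0_loc_tdual F (mu p) (cycloChar p) (mu_ρ_apply p) h1 S σ] at h
  exact h

end Herb

end Fermat.Agent.S56.H419

end
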