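import Fermat.Agent.S56.H419.H0Ind

/-!
# S56 / W-BASE / leaf EUL-H0, part 3 (helper419): double cosets as an orbit

Abstract dictionary.  `U ◁ G`, `π : G → Ḡ` a surjection with kernel `U`, `Ḡ` acting on `Z`,
`y₀ : Z` with `Stab(y₀) = π(D)` for a subgroup `D ≤ G`.  Then

  `dcToOrbit : D\G/U → Z`,  `D g U ↦ (π g)⁻¹ • y₀`

is injective (`dcToOrbit_injective`), its range is the orbit of `y₀` (`range_dcToOrbit`), and
right translation by `σ⁻¹` on double cosets becomes the action of `π σ`
(`dcToOrbit_dcPerm`).  `dcOrbitEquiv` packages this as an equivalence `D\G/U ≃ orbit Ḡ y₀`.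
-/

set_option autoImplicit false
set_option linter.style.haveILetI false

noncomputable section

namespace Fermat.Agent.S56.H419

open MulAction

section Orbit

variable {G : Type} [Group G] (D U : Subgroup G) [U.Normal]
  {Gb : Type*} [Group Gb] (π : G →* Gb) (hker : π.ker = U)
  {Z : Type*} [MulAction Gb Z] (y₀ : Z)

/-- `π` on `G ⧸ U`. -/
def quotHom : G ⧸ U →* Gb := QuotientGroup.lift U π (le_of_eq hker.symm)

@[simp] theorem quotHom_mk (g : G) : quotHom U π hker (g : G ⧸ U) = π g := rfl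

theorem quotHom_smul (g : G) (x : G ⧸ U) :
    quotHom U π hker (g • x) = π g * quotHom U π hker x := by
  rw [smul_eq_mk_mul, map_mul, quotHom_mk]

theorem quotHom_injective : Function.Injective (quotHom U π hker) := by
  rw [injective_iff_map_eq_one]
  intro x hx
  induction x using QuotientGroup.induction_on with
  | H g =>
    rw [quotHom_mk] at hx
    have hg : g ∈ U := by rw [← hker]; exact hx
    exact (QuotientGroup.eq_one_iff g).2 hg

theorem quotHom_surjective (hsurj : Function.Surjective π) :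
    Function.Surjective (quotHom U π hker) := by
  intro τ
  obtain ⟨g, rfl⟩ := hsurj τ
  exact ⟨(g : G ⧸ U), rfl⟩

variable (hstab : D.map π = stabilizer Gb y₀)

include hstab in
theorem dcToOrbit_aux (x y : G ⧸ U) (h : (orbitRel D (G ⧸ U)).r x y) :
    (quotHom U π hker x)⁻¹ • y₀ = (quotHom U π hker y)⁻¹ • y₀ := by
  obtain ⟨d, rfl⟩ := h
  have hd : π d.1 ∈ stabilizer Gb y₀ := by
    rw [← hstab]
    exact Subgroup.mem_map_of_mem π d.2
  have hd' : (π d.1)⁻¹ • y₀ = y₀ := by
    rw [inv_smul_eq_iff]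
    exact (mem_stabilizer_iff.1 hd).symm
  show (quotHom U π hker (d.1 • y))⁻¹ • y₀ = _
  rw [quotHom_smul, mul_inv_rev, mul_smul, hd']

/-- `D g U ↦ (π g)⁻¹ • y₀`. -/
def dcToOrbit : DC D U → Z :=
  Quotient.lift (s := orbitRel D (G ⧸ U)) (fun x : G ⧸ U => (quotHom U π hker x)⁻¹ • y₀)
    (dcToOrbit_aux D U π hker y₀ hstab)

@[simp] theorem dcToOrbit_mk (x : G ⧸ U) :
    dcToOrbit D U π hker y₀ hstab (Quotient.mk (orbitRel D (G ⧸ U)) x) =
      (quotHom U π hker x)⁻¹ • y₀ := rfl

theorem dcToOrbit_mk_mk (g : G) :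
    dcToOrbit D U π hker y₀ hstab (Quotient.mk (orbitRel D (G ⧸ U)) (g : G ⧸ U)) =
      (π g)⁻¹ • y₀ := rfl

/-- **Equivariance.** Right translation by `σ⁻¹` on `D\G/U` is the action of `π σ`. -/
theorem dcToOrbit_dcPerm (σ : G) (ω : DC D U) :
    dcToOrbit D U π hker y₀ hstab (dcPerm D U σ ω) =
      π σ • dcToOrbit D U π hker y₀ hstab ω := by
  induction ω using Quotient.inductionOn with
  | h x =>
    rw [dcPerm_mk, dcToOrbit_mk, dcToOrbit_mk, map_mul, map_inv, quotHom_mk, mul_inv_rev, inv_inv,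
      mul_smul]

theorem dcToOrbit_injective : Function.Injective (dcToOrbit D U π hker y₀ hstab) := by
  intro ω ω' h
  induction ω using Quotient.inductionOn with
  | h x =>
    induction ω' using Quotient.inductionOn with
    | h y =>
      rw [dcToOrbit_mk, dcToOrbit_mk] at h
      have h1 : (quotHom U π hker x * (quotHom U π hker y)⁻¹) • y₀ = y₀ := by
        rw [mul_smul, ← h, smul_inv_smul]
      have h2 : quotHom U π hker x * (quotHom U π hker y)⁻¹ ∈ D.map π := by
        rw [hstab]
        exact mem_stabilizer_iff.2 h1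
      obtain ⟨d, hd, hdπ⟩ := h2
      apply Quotient.sound
      refine ⟨⟨d, hd⟩, ?_⟩
      show d • y = x
      apply quotHom_injective U π hker
      rw [quotHom_smul, hdπ, inv_mul_cancel_right]

theorem dcToOrbit_mem_orbit (ω : DC D U) :
    dcToOrbit D U π hker y₀ hstab ω ∈ orbit Gb y₀ := by
  induction ω using Quotient.inductionOn with
  | h x => exact ⟨(quotHom U π hker x)⁻¹, rfl⟩

theorem range_dcToOrbit (hsurj : Function.Surjective π) :
    Set.range (dcToOrbit D U π hker y₀ hstab) = orbit Gb y₀ := by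
  ext z
  constructor
  · rintro ⟨ω, rfl⟩
    exact dcToOrbit_mem_orbit D U π hker y₀ hstab ω
  · rintro ⟨τ, rfl⟩
    obtain ⟨g, hg⟩ := hsurj τ⁻¹
    refine ⟨Quotient.mk (orbitRel D (G ⧸ U)) (g : G ⧸ U), ?_⟩
    rw [dcToOrbit_mk_mk, hg, inv_inv]

/-- **Double cosets = orbit.** -/
def dcOrbitEquiv (hsurj : Function.Surjective π) : DC D U ≃ ↥(orbit Gb y₀) :=
  Equiv.ofBijective
    (fun ω => ⟨dcToOrbit D U π hker y₀ hstab ω, dcToOrbit_mem_orbit D U π hker y₀ hstab ω⟩)
    ⟨fun ω ω' h => dcToOrbit_injective D U π hker y₀ hstab (congrArg Subtype.val h),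
      fun z => by
        have hz : z.1 ∈ Set.range (dcToOrbit D U π hker y₀ hstab) := by
          rw [range_dcToOrbit D U π hker y₀ hstab hsurj]
          exact z.2
        obtain ⟨ω, hω⟩ := hz
        exact ⟨ω, Subtype.ext hω⟩⟩

@[simp] theorem coe_dcOrbitEquiv (hsurj : Function.Surjective π) (ω : DC D U) :
    (dcOrbitEquiv D U π hker y₀ hstab hsurj ω : Z) = dcToOrbit D U π hker y₀ hstab ω := rfl

include hker hstab in
/-- The number of double cosets is the cardinality of the orbit. -/
theorem card_DC_eq (hsurj : Function.Surjective π) :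
    Nat.card (DC D U) = Nat.card ↥(orbit Gb y₀) :=
  Nat.card_congr (dcOrbitEquiv D U π hker y₀ hstab hsurj)

end Orbit

end Fermat.Agent.S56.H419

end
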