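import Mathlib

/-!
# S56 / W-BASE / leaf EUL-H0, part 1 (helper419): invariants of permutation modules

Mathlib-only.  `D` a group acting on a finite set `X`, `M` a `k`-module.
The functions `a : X →₀ M` that are constant on the `D`-orbits form a submodule
`orbitInv k D X M`, and

  `orbitInvEquiv : orbitInv k D X M ≃ₗ[k] (MulAction.orbitRel.Quotient D X →₀ M)`,
  `(orbitInvEquiv a) ⟦x⟧ = a x`.

A permutation `σ` of `X` commuting with `D` induces a permutation `orbitPerm σ` of the orbit
set, and `orbitInvEquiv` intertwines `Finsupp.mapDomain σ` with `Finsupp.mapDomain (orbitPerm σ)`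
(`orbitInvEquiv_mapDomain`).
-/

set_option autoImplicit false
set_option linter.style.haveILetI false

noncomputable section

namespace Fermat.Agent.S56.H419

open MulAction

section Orbit

variable (k : Type*) [CommRing k] (D : Type*) [Group D] (X : Type*) [MulAction D X]
  (M : Type*) [AddCommGroup M] [Module k M]

/-- The finitely supported functions on `X` which are constant on the `D`-orbits. -/
def orbitInv : Submodule k (X →₀ M) where
  carrier := {a | ∀ (d : D) (x : X), a (d • x) = a x}
  add_mem' := by
    intro a b ha hb d x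
    simp only [Finsupp.coe_add, Pi.add_apply, ha d x, hb d x]
  zero_mem' := by
    intro d x
    simp
  smul_mem' := by
    intro c a ha d x
    simp only [Finsupp.coe_smul, Pi.smul_apply, ha d x]

variable {k D X M}

theorem mem_orbitInv {a : X →₀ M} : a ∈ orbitInv k D X M ↔ ∀ (d : D) (x : X), a (d • x) = a x :=
  Iff.rfl

/-- An orbit-constant function takes the same value at two points of the same orbit. -/
theorem orbitInv_apply_eq_of_rel {a : X →₀ M} (ha : a ∈ orbitInv k D X M) {x y : X}
    (h : (orbitRel D X).r x y) : a x = a y := by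
  obtain ⟨d, rfl⟩ := h
  exact ha d y

variable (k D X M)

/-- The value of an orbit-constant function on an orbit. -/
def orbitVal (a : ↥(orbitInv k D X M)) : orbitRel.Quotient D X → M :=
  Quotient.lift (s := orbitRel D X) (fun x => a.1 x)
    (fun _ _ h => orbitInv_apply_eq_of_rel a.2 h)

@[simp] theorem orbitVal_mk (a : ↥(orbitInv k D X M)) (x : X) :
    orbitVal k D X M a (Quotient.mk (orbitRel D X) x) = a.1 x := rfl

/-- Orbit-constant functions on a finite `D`-set `X` are the functions on the orbit set. -/
def orbitInvEquiv [Finite X] :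
    ↥(orbitInv k D X M) ≃ₗ[k] (orbitRel.Quotient D X →₀ M) where
  toFun a := Finsupp.equivFunOnFinite.symm (orbitVal k D X M a)
  map_add' a b := by
    ext ω
    induction ω using Quotient.inductionOn with
    | h x => rfl
  map_smul' c a := by
    ext ω
    induction ω using Quotient.inductionOn with
    | h x => rfl
  invFun b := ⟨Finsupp.equivFunOnFinite.symm (fun x => b (Quotient.mk (orbitRel D X) x)), by
    intro d x
    simp only [Finsupp.equivFunOnFinite_symm_apply_apply]
    congr 1
    exact Quotient.sound (s := orbitRel D X) ⟨d, rfl⟩⟩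
  left_inv a := by
    apply Subtype.ext
    ext x
    simp [orbitVal]
  right_inv b := by
    ext ω
    induction ω using Quotient.inductionOn with
    | h x => rfl

@[simp] theorem orbitInvEquiv_apply_mk [Finite X] (a : ↥(orbitInv k D X M)) (x : X) :
    orbitInvEquiv k D X M a (Quotient.mk (orbitRel D X) x) = a.1 x := by
  simp [orbitInvEquiv, orbitVal]

@[simp] theorem orbitInvEquiv_symm_apply [Finite X] (b : orbitRel.Quotient D X →₀ M) (x : X) :
    ((orbitInvEquiv k D X M).symm b).1 x = b (Quotient.mk (orbitRel D X) x) := by
  simp [orbitInvEquiv]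

end Orbit

section Perm

variable {k : Type*} [CommRing k] {D : Type*} [Group D] {X : Type*} [MulAction D X]
  {M : Type*} [AddCommGroup M] [Module k M]

/-- A permutation of `X` commuting with the `D`-action induces a permutation of the orbits. -/
def orbitPerm (σ : Equiv.Perm X) (hσ : ∀ (d : D) (x : X), σ (d • x) = d • σ x) :
    Equiv.Perm (orbitRel.Quotient D X) where
  toFun := Quotient.map (sa := orbitRel D X) (sb := orbitRel D X) σ (by
    rintro x y ⟨d, rfl⟩
    exact ⟨d, (hσ d y).symm⟩)
  invFun := Quotient.map (sa := orbitRel D X) (sb := orbitRel D X) σ.symm (by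
    rintro x y ⟨d, rfl⟩
    refine ⟨d, ?_⟩
    apply σ.injective
    simp only [hσ, Equiv.apply_symm_apply])
  left_inv ω := by
    induction ω using Quotient.inductionOn with
    | h x => simp [Quotient.map_mk]
  right_inv ω := by
    induction ω using Quotient.inductionOn with
    | h x => simp [Quotient.map_mk]

@[simp] theorem orbitPerm_mk (σ : Equiv.Perm X) (hσ : ∀ (d : D) (x : X), σ (d • x) = d • σ x)
    (x : X) :
    orbitPerm σ hσ (Quotient.mk (orbitRel D X) x) = Quotient.mk (orbitRel D X) (σ x) := rfl

@[simp] theorem orbitPerm_symm_mk (σ : Equiv.Perm X)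
    (hσ : ∀ (d : D) (x : X), σ (d • x) = d • σ x) (x : X) :
    (orbitPerm σ hσ).symm (Quotient.mk (orbitRel D X) x) =
      Quotient.mk (orbitRel D X) (σ.symm x) := rfl

/-- `mapDomain` along a permutation, evaluated. -/
theorem mapDomain_perm_apply {Y : Type*} (σ : Equiv.Perm Y) (a : Y →₀ M) (y : Y) :
    Finsupp.mapDomain σ a y = a (σ.symm y) := by
  conv_lhs => rw [← σ.apply_symm_apply y]
  exact Finsupp.mapDomain_apply σ.injective a (σ.symm y)

/-- `mapDomain σ` preserves orbit-constant functions when `σ` commutes with `D`. -/
theorem mapDomain_mem_orbitInv (σ : Equiv.Perm X)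
    (hσ : ∀ (d : D) (x : X), σ (d • x) = d • σ x) {a : X →₀ M} (ha : a ∈ orbitInv k D X M) :
    Finsupp.mapDomain σ a ∈ orbitInv k D X M := by
  intro d x
  rw [mapDomain_perm_apply, mapDomain_perm_apply]
  have h : σ.symm (d • x) = d • σ.symm x := by
    apply σ.injective
    rw [hσ, Equiv.apply_symm_apply, Equiv.apply_symm_apply]
  rw [h]
  exact ha d _

/-- **Intertwining.** Under `orbitInvEquiv`, `mapDomain σ` on orbit-constant functions is
`mapDomain` along the induced permutation of the orbit set. -/
theorem orbitInvEquiv_mapDomain [Finite X] (σ : Equiv.Perm X)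
    (hσ : ∀ (d : D) (x : X), σ (d • x) = d • σ x) (a : ↥(orbitInv k D X M)) :
    orbitInvEquiv k D X M ⟨Finsupp.mapDomain σ a.1, mapDomain_mem_orbitInv σ hσ a.2⟩ =
      Finsupp.mapDomain (orbitPerm σ hσ) (orbitInvEquiv k D X M a) := by
  ext ω
  induction ω using Quotient.inductionOn with
  | h x =>
    rw [orbitInvEquiv_apply_mk, mapDomain_perm_apply, mapDomain_perm_apply, orbitPerm_symm_mk,
      orbitInvEquiv_apply_mk]

/-- The dimension of the orbit-constant functions is `#orbits · dim M`. -/
theorem finrank_orbitInv {K : Type*} [Field K] {D' : Type*} [Group D'] {X' : Type} [MulAction D' X']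
    {N : Type} [AddCommGroup N] [Module K N] [Finite X'] [Module.Finite K N] :
    Module.finrank K ↥(orbitInv K D' X' N) =
      Nat.card (orbitRel.Quotient D' X') * Module.finrank K N := by
  classical
  letI : Fintype (orbitRel.Quotient D' X') := Fintype.ofFinite _
  rw [(orbitInvEquiv K D' X' N).finrank_eq, Module.finrank_finsupp, Nat.card_eq_fintype_card]

end Perm

end Fermat.Agent.S56.H419

end
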