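import Fermat.Agent.S56.H419.H0Orbit
import Fermat.Agent.S55.Bridge.H175.PrimeLevel
import Fermat.Agent.S55.Bridge.Level

/-!
# S56 / W-BASE / leaf EUL-H0, part 4 (helper419): double cosets = places of the level field

`F/ℚ` a finite Galois level inside `ℚ̄`, `U = G_F = F.fixingSubgroup`, `resF : G_ℚ → Gal(F/ℚ)`.

* finite primes: `D_q = range (primeLocalToGlobal q)`;
  `primeOfDC q F : D_q\G_ℚ/U → Ideal (𝓞 F)`, `D_q g U ↦ (g|_F)⁻¹ • 𝔓₀`
  (`𝔓₀ = primeLevelPrime q F`, the prime below the Prelude's place `primeLocalPlace q`)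
  is injective with range the set of primes of `𝓞 F` containing `q`
  (`primeOfDC_injective`, `range_primeOfDC`), and right translation by `σ⁻¹` becomes the action
  of `σ|_F` on ideals (`primeOfDC_dcPerm`);
* infinite places: `⟨c⟩ = zpowers complexConjugation`;
  `placeOfDC F : ⟨c⟩\G_ℚ/U → InfinitePlace F` is bijective (`placeOfDC_bijective`) and
  equivariant (`placeOfDC_dcPerm`).
-/

set_option autoImplicit false
set_option linter.style.haveILetI false
set_option linter.unusedSectionVars false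

noncomputable section

open scoped Pointwise NumberField

namespace Fermat.Agent.S56.H419

open Fermat.Agent.S55.PT Fermat.Agent.S55.Bridge.H175 ExtCitation MulAction NumberField

attribute [local instance] Fermat.Agent.S55.Bridge.isAlgebraic_Qbar
  Fermat.Agent.S55.Bridge.isGalois_Qbar

section Res

variable (F : IntermediateField ℚ (AlgebraicClosure ℚ)) [Normal ℚ F]

/-- Restriction `G_ℚ → Gal(F/ℚ)`. -/
def resF : GQ →* (F ≃ₐ[ℚ] F) :=
  AlgEquiv.restrictNormalHom (F := ℚ) (K₁ := AlgebraicClosure ℚ) F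

theorem resF_apply_coe (σ : GQ) (x : F) :
    ((resF F σ x : F) : AlgebraicClosure ℚ) = σ (x : AlgebraicClosure ℚ) :=
  AlgEquiv.restrictNormal_commutes σ F x

theorem resF_surjective : Function.Surjective (resF F) :=
  AlgEquiv.restrictNormalHom_surjective (F := ℚ) (K₁ := F) (AlgebraicClosure ℚ)

theorem ker_resF : (resF F).ker = F.fixingSubgroup := by
  ext σ
  rw [MonoidHom.mem_ker, IntermediateField.mem_fixingSubgroup_iff]
  constructor
  · intro h x hx
    have := resF_apply_coe F σ ⟨x, hx⟩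
    rw [h] at this
    exact this.symm
  · intro h
    apply AlgEquiv.ext
    intro x
    apply Subtype.ext
    rw [resF_apply_coe]
    exact h x.1 x.2

instance fixingSubgroup_normal_of_normal : F.fixingSubgroup.Normal := by
  rw [← ker_resF F]
  infer_instance

instance fixingSubgroup_finiteIndex_of_finite [FiniteDimensional ℚ F] :
    F.fixingSubgroup.FiniteIndex := by
  rw [← ker_resF F]
  haveI : Finite (F ≃ₐ[ℚ] F) := inferInstance
  haveI : Finite ↥(resF F).range := inferInstance
  exact Subgroup.finiteIndex_ker (resF F)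

end Res

/-! ### finite primes -/

section Finite

variable (q : Nat.Primes) (F : IntermediateField ℚ (AlgebraicClosure ℚ)) [Normal ℚ F]

/-- The decomposition group `D_q ≤ G_ℚ` of the Prelude: the image of `primeLocalToGlobal q`. -/
abbrev Dq : Subgroup GQ := (primeLocalToGlobal q).range

theorem map_Dq : (Dq q).map (resF F) = stabilizer (F ≃ₐ[ℚ] F) (primeLevelPrime q F) := by
  rw [Dq, MonoidHom.map_range]
  exact range_primeToLevel_eq_stabilizer q F

/-- `D_q g U ↦ (g|_F)⁻¹ • 𝔓₀`. -/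
def primeOfDC : DC (Dq q) F.fixingSubgroup → Ideal (𝓞 F) :=
  dcToOrbit (Dq q) F.fixingSubgroup (resF F) (ker_resF F) (primeLevelPrime q F) (map_Dq q F)

theorem primeOfDC_mk (g : GQ) :
    primeOfDC q F (Quotient.mk (orbitRel (Dq q) (GQ ⧸ F.fixingSubgroup))
      (g : GQ ⧸ F.fixingSubgroup)) = (resF F g)⁻¹ • primeLevelPrime q F := rfl

/-- **Equivariance (finite primes).** -/
theorem primeOfDC_dcPerm (σ : GQ) (ω : DC (Dq q) F.fixingSubgroup) :
    primeOfDC q F (dcPerm (Dq q) F.fixingSubgroup σ ω) = resF F σ • primeOfDC q F ω :=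
  dcToOrbit_dcPerm (Dq q) F.fixingSubgroup (resF F) (ker_resF F) (primeLevelPrime q F)
    (map_Dq q F) σ ω

theorem primeOfDC_injective : Function.Injective (primeOfDC q F) :=
  dcToOrbit_injective (Dq q) F.fixingSubgroup (resF F) (ker_resF F) (primeLevelPrime q F)
    (map_Dq q F)

theorem smul_natCast_ringOfIntegers (τ : F ≃ₐ[ℚ] F) (n : ℕ) : τ • (n : 𝓞 F) = (n : 𝓞 F) := by
  apply RingOfIntegers.ext
  change τ ((n : 𝓞 F) : F) = ((n : 𝓞 F) : F)
  simp

theorem under_eq_span_of_natCast_mem {P : Ideal (𝓞 F)} (hP : P.IsPrime)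
    (hq : ((q : ℕ) : 𝓞 F) ∈ P) : P.under ℤ = Ideal.span {((q : ℕ) : ℤ)} := by
  have hqp : Prime ((q : ℕ) : ℤ) := Nat.prime_iff_prime_int.1 q.2
  have hmax : (Ideal.span {((q : ℕ) : ℤ)}).IsMaximal :=
    PrincipalIdealRing.isMaximal_of_irreducible hqp.irreducible
  have hle : Ideal.span {((q : ℕ) : ℤ)} ≤ P.under ℤ := by
    rw [Ideal.span_singleton_le_iff_mem, Ideal.mem_comap]
    simpa using hq
  have hne : P.under ℤ ≠ ⊤ := (Ideal.IsPrime.under ℤ P).ne_top
  exact (hmax.eq_of_le hne hle).symm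

variable [FiniteDimensional ℚ F]

/-- The orbit of `𝔓₀` is the set of all primes of `𝓞 F` containing `q`. -/
theorem orbit_primeLevelPrime :
    orbit (F ≃ₐ[ℚ] F) (primeLevelPrime q F) =
      {P : Ideal (𝓞 F) | P.IsPrime ∧ ((q : ℕ) : 𝓞 F) ∈ P} := by
  haveI : NumberField F := ⟨⟩
  haveI : IsGalois ℚ F := ⟨⟩
  have h0 : (primeLevelPrime q F).IsPrime := primeLevelPrime_isPrime q F
  ext P
  constructor
  · rintro ⟨τ, rfl⟩
    refine ⟨inferInstance, ?_⟩
    show ((q : ℕ) : 𝓞 F) ∈ τ • primeLevelPrime q F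
    rw [← smul_natCast_ringOfIntegers F τ q]
    exact Ideal.smul_mem_pointwise_smul τ _ _ (natCast_mem_primeLevelPrime q F)
  · rintro ⟨hP, hq⟩
    have h1 := under_eq_span_of_natCast_mem q F h0 (natCast_mem_primeLevelPrime q F)
    have h2 := under_eq_span_of_natCast_mem q F hP hq
    obtain ⟨τ, hτ⟩ := Algebra.IsInvariant.exists_smul_of_under_eq ℤ (𝓞 F) (F ≃ₐ[ℚ] F)
      (primeLevelPrime q F) P (h1.trans h2.symm)
    exact ⟨τ, hτ.symm⟩

/-- **Finite primes.** The range of `primeOfDC` is the set of primes of `𝓞 F` above `q`. -/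
theorem range_primeOfDC :
    Set.range (primeOfDC q F) = {P : Ideal (𝓞 F) | P.IsPrime ∧ ((q : ℕ) : 𝓞 F) ∈ P} := by
  rw [← orbit_primeLevelPrime q F]
  exact range_dcToOrbit (Dq q) F.fixingSubgroup (resF F) (ker_resF F) (primeLevelPrime q F)
    (map_Dq q F) (resF_surjective F)

/-- `D_q\G_ℚ/G_F ≃ {primes of 𝓞 F above q}`. -/
def primeDCEquiv :
    DC (Dq q) F.fixingSubgroup ≃ {P : Ideal (𝓞 F) // P.IsPrime ∧ ((q : ℕ) : 𝓞 F) ∈ P} :=
  Equiv.ofBijective
    (fun ω => ⟨primeOfDC q F ω, by
      have : primeOfDC q F ω ∈ Set.range (primeOfDC q F) := ⟨ω, rfl⟩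
      rw [range_primeOfDC] at this
      exact this⟩)
    ⟨fun ω ω' h => primeOfDC_injective q F (congrArg Subtype.val h), fun P => by
      have hP : P.1 ∈ Set.range (primeOfDC q F) := by
        rw [range_primeOfDC]
        exact P.2
      obtain ⟨ω, hω⟩ := hP
      exact ⟨ω, Subtype.ext hω⟩⟩

@[simp] theorem coe_primeDCEquiv (ω : DC (Dq q) F.fixingSubgroup) :
    (primeDCEquiv q F ω : Ideal (𝓞 F)) = primeOfDC q F ω := rfl

end Finite

/-! ### infinite places -/

section Infinite

variable (F : IntermediateField ℚ (AlgebraicClosure ℚ)) [Normal ℚ F]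

/-- The base embedding `F ⊂ ℚ̄ → ℂ`. -/
def baseEmb : F →+* ℂ :=
  (complexEmbedding : AlgebraicClosure ℚ →+* ℂ).comp (algebraMap F (AlgebraicClosure ℚ))

theorem baseEmb_apply (x : F) : baseEmb F x = complexEmbedding (x : AlgebraicClosure ℚ) := rfl

/-- The base infinite place of `F`. -/
def basePlace : InfinitePlace F := InfinitePlace.mk (baseEmb F)

/-- The decomposition group at infinity. -/
abbrev Dinf : Subgroup GQ := Subgroup.zpowers complexConjugation

theorem isConj_baseEmb : ComplexEmbedding.IsConj (baseEmb F) (resF F complexConjugation) := by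
  apply RingHom.ext
  intro x
  show (starRingEnd ℂ) (baseEmb F x) = baseEmb F (resF F complexConjugation x)
  rw [baseEmb_apply, baseEmb_apply, resF_apply_coe, complexEmbedding_complexConjugation]

theorem resF_cc_mul_self :
    resF F complexConjugation * resF F complexConjugation = 1 := by
  rw [← map_mul, complexConjugation_mul_self, map_one]

theorem map_Dinf : Dinf.map (resF F) = stabilizer (F ≃ₐ[ℚ] F) (basePlace F) := by
  rw [Dinf, MonoidHom.map_zpowers]
  ext τ
  rw [basePlace, InfinitePlace.mem_stabilizer_mk_iff]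
  constructor
  · intro h
    obtain ⟨n, rfl⟩ := Subgroup.mem_zpowers_iff.1 h
    rcases Int.even_or_odd n with ⟨m, rfl⟩ | ⟨m, rfl⟩
    · left
      rw [← two_mul, zpow_mul, zpow_two, resF_cc_mul_self, one_zpow]
    · right
      rw [zpow_add, zpow_mul, zpow_two, resF_cc_mul_self, one_zpow, one_mul, zpow_one]
      exact isConj_baseEmb F
  · rintro (rfl | h)
    · exact one_mem _
    · rw [ComplexEmbedding.IsConj.ext h (isConj_baseEmb F)]
      exact Subgroup.mem_zpowers _

/-- `⟨c⟩ g U ↦ (g|_F)⁻¹ • w₀`. -/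
def placeOfDC : DC Dinf F.fixingSubgroup → InfinitePlace F :=
  dcToOrbit Dinf F.fixingSubgroup (resF F) (ker_resF F) (basePlace F) (map_Dinf F)

theorem placeOfDC_mk (g : GQ) :
    placeOfDC F (Quotient.mk (orbitRel Dinf (GQ ⧸ F.fixingSubgroup))
      (g : GQ ⧸ F.fixingSubgroup)) = (resF F g)⁻¹ • basePlace F := rfl

/-- **Equivariance (infinite places).** -/
theorem placeOfDC_dcPerm (σ : GQ) (ω : DC Dinf F.fixingSubgroup) :
    placeOfDC F (dcPerm Dinf F.fixingSubgroup σ ω) = resF F σ • placeOfDC F ω :=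
  dcToOrbit_dcPerm Dinf F.fixingSubgroup (resF F) (ker_resF F) (basePlace F) (map_Dinf F) σ ω

theorem placeOfDC_injective : Function.Injective (placeOfDC F) :=
  dcToOrbit_injective Dinf F.fixingSubgroup (resF F) (ker_resF F) (basePlace F) (map_Dinf F)

variable [FiniteDimensional ℚ F]

theorem orbit_basePlace : orbit (F ≃ₐ[ℚ] F) (basePlace F) = Set.univ := by
  haveI : IsGalois ℚ F := ⟨⟩
  ext w
  simp only [Set.mem_univ, iff_true]
  obtain ⟨τ, hτ⟩ := InfinitePlace.exists_smul_eq_of_comap_eq (k := ℚ) (w := basePlace F) (w' := w)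
    (Subsingleton.elim _ _)
  exact ⟨τ, hτ⟩

theorem placeOfDC_surjective : Function.Surjective (placeOfDC F) := by
  intro w
  have h : w ∈ Set.range (placeOfDC F) := by
    rw [placeOfDC, range_dcToOrbit Dinf F.fixingSubgroup (resF F) (ker_resF F) (basePlace F)
      (map_Dinf F) (resF_surjective F), orbit_basePlace]
    exact Set.mem_univ w
  exact h

/-- **Infinite places.** `⟨c⟩\G_ℚ/G_F ≃ InfinitePlace F`. -/
theorem placeOfDC_bijective : Function.Bijective (placeOfDC F) :=
  ⟨placeOfDC_injective F, placeOfDC_surjective F⟩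

/-- `⟨c⟩\G_ℚ/G_F ≃ InfinitePlace F`. -/
def placeDCEquiv : DC Dinf F.fixingSubgroup ≃ InfinitePlace F :=
  Equiv.ofBijective (placeOfDC F) (placeOfDC_bijective F)

@[simp] theorem placeDCEquiv_apply (ω : DC Dinf F.fixingSubgroup) :
    placeDCEquiv F ω = placeOfDC F ω := rfl

end Infinite

end Fermat.Agent.S56.H419

end
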