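import Fermat.Agent.S56.H419.H0CharpolyPlaces
import Fermat.Agent.S56.H614.UnitsCharpoly

/-!
# S56 / W-BASE / leaf EUL-H0, part 9 (helper419): adapter to the HERB vocabulary

The unit theorem mod `p` (`H614.sUnits_charpoly`, `Euler.H896.herbCharpoly`) is stated for a
Galois extension `L/K` of number fields and a finite set `T` of primes of `K`
(`T : Finset (HeightOneSpectrum (𝓞 K))`), with the `Gal(L/K)`-set
`primesAbove K L T` (`S55/G/SpecUnits.lean`) and the permutation `H614.primePerm K L T τ`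
(`w ↦ τ⁻¹ w`).  Here `K = ℚ`, `L = F` a finite Galois level and `T = primesT S` for a finite set
`S` of rational primes:

* `ratPrime q : HeightOneSpectrum (𝓞 ℚ)`, `primesT S = S.image ratPrime`;
* `mem_primesAbove_primesT_iff` : `w ∈ primesAbove ℚ F (primesT S) ↔ ∃ q ∈ S, q ∈ w`;
* `permCharpoly_primePerm` : `permCharpoly k (primePerm ℚ F (primesT S) τ) =
  ∏ q ∈ S, permCharpoly k (τ⁻¹ | primes of 𝓞 F above q)`.
-/

set_option autoImplicit false
set_option linter.style.haveILetI false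
set_option linter.unusedSectionVars false

noncomputable section

open scoped Pointwise NumberField

namespace Fermat.Agent.S56.H419

open Fermat.Agent.S55.PT Fermat.Agent.S55.G Fermat.Agent.S56.H614 ExtCitation MulAction
  NumberField Polynomial IsDedekindDomain

/-! ### rational primes as primes of `𝓞 ℚ` -/

theorem natCast_ringOfIntegers_rat_ne_zero (q : Nat.Primes) : ((q : ℕ) : 𝓞 ℚ) ≠ 0 := by
  intro h
  have := congrArg (fun x : 𝓞 ℚ => (x : ℚ)) h
  simp only [map_natCast, map_zero] at this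
  exact q.2.ne_zero (by exact_mod_cast this)

theorem prime_natCast_ringOfIntegers_rat (q : Nat.Primes) : Prime ((q : ℕ) : 𝓞 ℚ) := by
  have h1 : Prime ((q : ℕ) : ℤ) := Nat.prime_iff_prime_int.1 q.2
  have h2 : Rat.ringOfIntegersEquiv ((q : ℕ) : 𝓞 ℚ) = ((q : ℕ) : ℤ) := map_natCast _ _
  rw [← h2] at h1
  exact (MulEquiv.prime_iff Rat.ringOfIntegersEquiv.toMulEquiv).1 h1

/-- The prime `(q)` of `𝓞 ℚ`. -/
def ratPrime (q : Nat.Primes) : HeightOneSpectrum (𝓞 ℚ) where
  asIdeal := Ideal.span {((q : ℕ) : 𝓞 ℚ)}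
  isPrime := (Ideal.span_singleton_prime (natCast_ringOfIntegers_rat_ne_zero q)).2
    (prime_natCast_ringOfIntegers_rat q)
  ne_bot := by
    rw [Ne, Ideal.span_singleton_eq_bot]
    exact natCast_ringOfIntegers_rat_ne_zero q

@[simp] theorem ratPrime_asIdeal (q : Nat.Primes) :
    (ratPrime q).asIdeal = Ideal.span {((q : ℕ) : 𝓞 ℚ)} := rfl

open Classical in
/-- The finite set of primes of `𝓞 ℚ` attached to a finite set of rational primes. -/
def primesT (S : Finset Nat.Primes) : Finset (HeightOneSpectrum (𝓞 ℚ)) := S.image ratPrime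

theorem mem_primesT {S : Finset Nat.Primes} {v : HeightOneSpectrum (𝓞 ℚ)} :
    v ∈ primesT S ↔ ∃ q ∈ S, ratPrime q = v := by
  classical
  unfold primesT
  rw [Finset.mem_image]

section Level

variable (F : IntermediateField ℚ (AlgebraicClosure ℚ)) [NumberField F]

/-- `w` lies over `(q)` iff `q ∈ w`. -/
theorem under_eq_ratPrime_iff (q : Nat.Primes) (w : HeightOneSpectrum (𝓞 F)) :
    w.asIdeal.under (𝓞 ℚ) = (ratPrime q).asIdeal ↔ ((q : ℕ) : 𝓞 F) ∈ w.asIdeal := by
  constructor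
  · intro h
    have h1 : ((q : ℕ) : 𝓞 ℚ) ∈ w.asIdeal.under (𝓞 ℚ) := by
      rw [h, ratPrime_asIdeal]
      exact Ideal.mem_span_singleton_self _
    rw [Ideal.under_def, Ideal.mem_comap, map_natCast] at h1
    exact h1
  · intro h
    have hle : (ratPrime q).asIdeal ≤ w.asIdeal.under (𝓞 ℚ) := by
      rw [ratPrime_asIdeal, Ideal.span_singleton_le_iff_mem, Ideal.under_def, Ideal.mem_comap,
        map_natCast]
      exact h
    have hne : w.asIdeal.under (𝓞 ℚ) ≠ ⊤ := (Ideal.IsPrime.under (𝓞 ℚ) w.asIdeal).ne_top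
    exact ((ratPrime q).isMaximal.eq_of_le hne hle).symm

theorem mem_primesAbove_primesT_iff (S : Finset Nat.Primes) (w : HeightOneSpectrum (𝓞 F)) :
    w ∈ primesAbove ℚ F (primesT S) ↔ ∃ q ∈ S, ((q : ℕ) : 𝓞 F) ∈ w.asIdeal := by
  constructor
  · rintro ⟨v, hv, hw⟩
    obtain ⟨q, hq, rfl⟩ := mem_primesT.1 hv
    exact ⟨q, hq, (under_eq_ratPrime_iff F q w).1 hw⟩
  · rintro ⟨q, hq, hw⟩
    exact ⟨ratPrime q, mem_primesT.2 ⟨q, hq, rfl⟩, (under_eq_ratPrime_iff F q w).2 hw⟩

theorem natCast_ringOfIntegers_ne_zero (q : Nat.Primes) : ((q : ℕ) : 𝓞 F) ≠ 0 := by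
  intro h
  have := congrArg (fun x : 𝓞 F => (x : F)) h
  simp only [map_natCast, map_zero] at this
  exact q.2.ne_zero (by exact_mod_cast this)

/-- `{primes of 𝓞 F above S} ≃ primesAbove ℚ F (primesT S)`. -/
def primesTEquiv (S : Finset Nat.Primes) :
    {P : Ideal (𝓞 F) // ∃ q ∈ S, IsPrimeOver F q P} ≃ ↥(primesAbove ℚ F (primesT S)) where
  toFun P := ⟨⟨P.1, by obtain ⟨q, _, h⟩ := P.2; exact h.1, by
      obtain ⟨q, _, h⟩ := P.2
      intro hbot
      have := h.2
      rw [hbot, Ideal.mem_bot] at this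
      exact natCast_ringOfIntegers_ne_zero F q this⟩,
    (mem_primesAbove_primesT_iff F S _).2 (by
      obtain ⟨q, hq, h⟩ := P.2
      exact ⟨q, hq, h.2⟩)⟩
  invFun w := ⟨w.1.asIdeal, by
    obtain ⟨q, hq, h⟩ := (mem_primesAbove_primesT_iff F S w.1).1 w.2
    exact ⟨q, hq, w.1.isPrime, h⟩⟩
  left_inv P := rfl
  right_inv w := rfl

@[simp] theorem primesTEquiv_asIdeal (S : Finset Nat.Primes)
    (P : {P : Ideal (𝓞 F) // ∃ q ∈ S, IsPrimeOver F q P}) :
    (primesTEquiv F S P).1.asIdeal = P.1 := rfl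

variable [IsGalois ℚ F] (k : Type*) [Field k]

/-- **Adapter.** `permCharpoly` of `H614.primePerm` on the primes above `primesT S` is the
`permCharpoly` of `τ⁻¹` on the primes of `𝓞 F` above `S`. -/
theorem permCharpoly_primePerm_eq_union (S : Finset Nat.Primes) (τ : F ≃ₐ[ℚ] F)
    [Finite {P : Ideal (𝓞 F) // ∃ q ∈ S, IsPrimeOver F q P}] :
    permCharpoly k (primePerm ℚ F (primesT S) τ) =
      permCharpoly k (unionMap (IsPrimeOver F) (fun P => τ⁻¹ • P)
        (fun _ _ h => h.smul τ⁻¹) S) := by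
  symm
  refine permCharpoly_congr_equiv k (primesTEquiv F S) _ _ ?_
  intro P
  apply Subtype.ext
  apply HeightOneSpectrum.ext
  rfl

end Level

section Final

variable (F : IntermediateField ℚ (AlgebraicClosure ℚ)) [NumberField F] [IsGalois ℚ F]
  [FiniteDimensional ℚ F] (k : Type*) [Field k]

/-- **Product formula in HERB vocabulary.**
`permCharpoly k (primePerm ℚ F (primesT S) τ) = ∏_{q ∈ S} permCharpoly k (τ⁻¹ | primes above q)`. -/
theorem permCharpoly_primePerm (S : Finset Nat.Primes) (τ : F ≃ₐ[ℚ] F) :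
    permCharpoly k (primePerm ℚ F (primesT S) τ) =
      ∏ q ∈ S, permCharpoly k (primeOverMap F τ⁻¹ q) := by
  rw [permCharpoly_primePerm_eq_union F k S τ, prod_permCharpoly_primesOver F k S τ⁻¹]

/-- **Finite primes, HERB vocabulary.**
`∏_{q ∈ S} permCharpoly k (dcPerm D_q U σ)⁻¹ = permCharpoly k (primePerm ℚ F (primesT S) σ|_F)`. -/
theorem prod_permCharpoly_dcPerm_Dq (S : Finset Nat.Primes) (σ : GQ) :
    ∏ q ∈ S, permCharpoly k (dcPerm (Dq q) F.fixingSubgroup σ).symm =
      permCharpoly k (primePerm ℚ F (primesT S) (resF F σ)) := by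
  rw [permCharpoly_primePerm F k S (resF F σ)]
  exact Finset.prod_congr rfl (fun q _ => permCharpoly_dcPerm_Dq F k q σ)

end Final

end Fermat.Agent.S56.H419

end
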